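import Fermat.Agent.MW.Weak.Derivation
import Fermat.Agent.MW.Core.API
import Mathlib.RingTheory.Ideal.Quotient.Operations

/-!
# Rigidity of division classes

A minimal divisor, some multiple of whose class is defined over an algebraically closed subfield,
is itself defined over it; this is proved with derivations of the scalars.
-/

set_option autoImplicit false

attribute [-instance] IntermediateField.module'

noncomputable section

open scoped TensorProduct nonZeroDivisors Classical

namespace Fermat.Agent.MW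

theorem finPart_nsmul {K A : Type} [Field K] [CommRing A] [Algebra K A] (m : ℕ)
    (F : Multiset (Pt K A)) : finPart (m • F) = m • finPart F := by
  induction m with
  | zero => simp [finPart]
  | succ m ih => rw [succ_nsmul, succ_nsmul, finPart_add, ih]

theorem divIdeal_nsmul {K A : Type} [Field K] [CommRing A] [Algebra K A] (m : ℕ)
    (F : Multiset (A →ₐ[K] K)) : divIdeal (m • F) = divIdeal F ^ m := by
  rw [divIdeal, Multiset.map_nsmul, Multiset.prod_nsmul, divIdeal]

/-- Classes respect multiples. -/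
theorem cl_nsmul {K A : Type} [Field K] [CommRing A] [Algebra K A] [IsDedekindDomain A] (m : ℕ)
    (F : Multiset (Pt K A)) : cl (m • F) = m • cl F := by
  simp [cl, Multiset.map_nsmul, Multiset.sum_nsmul]

theorem map_some_finPart {K A : Type} [Field K] [CommRing A] [Algebra K A]
    {F : Multiset (Pt K A)} (h : none ∉ F) : (finPart F).map some = F := by
  conv_rhs => rw [eq_finPart_add F, Multiset.count_eq_zero_of_notMem h]
  simp

section Push

variable {K A M L : Type} [Field K] [CommRing A] [Algebra K A] [Field M] [Algebra K M] [Field L]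
  [Algebra K L] (f : M →ₐ[K] L)

/-- Apply an embedding to the coefficients. -/
def pushFun : M ⊗[K] A →ₐ[K] L ⊗[K] A := Algebra.TensorProduct.map f (AlgHom.id K A)

/-- Applying an embedding to pure tensors. -/
@[simp] theorem pushFun_tmul (c : M) (a : A) : pushFun f (c ⊗ₜ a) = f c ⊗ₜ[K] a := rfl

/-- Applying an embedding acts on the coefficients. -/
theorem coeff_pushFun (D : CurveBasis K A) (n : ℕ) (t : M ⊗[K] A) :
    (D.baseChange L).coeff n (pushFun f t) = f ((D.baseChange M).coeff n t) := by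
  induction t with
  | zero => simp
  | tmul c a => simp [CurveBasis.baseChange_coeff]
  | add x y hx hy => simp [hx, hy]

/-- A function whose coefficients lie in the image comes from the smaller field. -/
theorem exists_pushFun_eq (D : CurveBasis K A) {t : L ⊗[K] A}
    (h : ∀ n, (D.baseChange L).coeff n t ∈ f.fieldRange) : ∃ t₀, pushFun f t₀ = t := by
  choose c hc using fun n => AlgHom.mem_fieldRange.mp (h n)
  refine ⟨∑ i ∈ ((D.baseChange L).basis.repr t).support, c i.1 ⊗ₜ D.basis i, ?_⟩
  conv_rhs => rw [← (D.baseChange L).basis.linearCombination_repr t,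
    Finsupp.linearCombination_apply, Finsupp.sum]
  rw [map_sum]
  refine Finset.sum_congr rfl fun i _ => ?_
  rw [pushFun_tmul, hc]
  have hc' : (D.baseChange L).coeff i.1 t = (D.baseChange L).basis.repr t i := by
    rw [CurveBasis.coeff, dif_neg (show i.1 ∉ (D.baseChange L).gaps from i.2)]
    rfl
  rw [hc']
  show _ = _ • D.basis.baseChange L i
  rw [Module.Basis.baseChange_apply, TensorProduct.smul_tmul', smul_eq_mul, mul_one]

end Push

section Descent

variable {K A L : Type} [Field K] [CommRing A] [Algebra K A] [Field L] [Algebra K L]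

/-- Functions with coefficients in an intermediate field. -/
def incFun (L₀ : IntermediateField K L) : L₀ ⊗[K] A →ₐ[K] L ⊗[K] A :=
  pushFun L₀.val

/-- The inclusion on pure tensors. -/
@[simp] theorem incFun_tmul (L₀ : IntermediateField K L) (c : L₀) (f : A) :
    incFun L₀ (c ⊗ₜ f) = (c : L) ⊗ₜ f := rfl

theorem coeff_incFun (D : CurveBasis K A) (L₀ : IntermediateField K L) (n : ℕ)
    (t : L₀ ⊗[K] A) :
    (D.baseChange L).coeff n (incFun L₀ t) = ((D.baseChange L₀).coeff n t : L) :=
  coeff_pushFun L₀.val D n t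

/-- A function with coefficients in an intermediate field is defined over it. -/
theorem exists_incFun_eq (D : CurveBasis K A) (L₀ : IntermediateField K L) {t : L ⊗[K] A}
    (h : ∀ n, (D.baseChange L).coeff n t ∈ L₀) : ∃ t₀, incFun L₀ t₀ = t :=
  exists_pushFun_eq L₀.val D fun n => AlgHom.mem_fieldRange.mpr ⟨⟨_, h n⟩, rfl⟩

/-- A point killed by a nonzero function over an algebraically closed subfield lies over it. -/
theorem definedOver_of_eq_zero (D : CurveBasis K A) (L₀ : IntermediateField K L) [IsAlgClosed L₀]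
    (φ : L ⊗[K] A →ₐ[L] L) {t₀ : L₀ ⊗[K] A} (ht₀ : t₀ ≠ 0) (h : φ (incFun L₀ t₀) = 0) :
    DefinedOver L₀ (some φ) := by
  intro f
  let ψ : L₀ ⊗[K] A →ₐ[L₀] L :=
    { ((φ.restrictScalars K).comp (incFun L₀)).toRingHom with
      commutes' := fun c => by
        show φ (incFun L₀ (c ⊗ₜ 1)) = (c : L)
        rw [incFun_tmul]
        exact φ.commutes (c : L) }
  have hfin : FiniteDimensional L₀ ((L₀ ⊗[K] A) ⧸ Ideal.span {t₀}) :=
    (D.baseChange L₀).finite_quotient _ (by simpa using ht₀)
  let ψ' : ((L₀ ⊗[K] A) ⧸ Ideal.span {t₀}) →ₐ[L₀] L :=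
    Ideal.Quotient.liftₐ _ ψ fun a ha => by
      obtain ⟨b, rfl⟩ := Ideal.mem_span_singleton'.mp ha
      rw [map_mul, show ψ t₀ = 0 from h, mul_zero]
  have hint : IsIntegral L₀ (φ (1 ⊗ₜ f)) := by
    have : φ (1 ⊗ₜ f) = ψ' (Ideal.Quotient.mk _ (1 ⊗ₜ f)) := by
      show _ = φ (incFun L₀ (1 ⊗ₜ f))
      rw [incFun_tmul]
      rfl
    rw [this]
    exact (IsIntegral.of_finite L₀ _).map ψ'
  obtain ⟨c, hc⟩ := IntermediateField.mem_bot.mp
    (show φ (1 ⊗ₜ f) ∈ (⊥ : IntermediateField L₀ L) by
      rw [← IntermediateField.adjoin_simple_eq_bot_iff]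
      have := IntermediateField.isAlgebraic_adjoin_simple hint
      exact IntermediateField.eq_bot_of_isAlgClosed_of_isAlgebraic _)
  exact hc ▸ c.2

variable [IsAlgClosed K]

namespace CurveBasis

variable (D : CurveBasis K A)

omit [IsAlgClosed K] in
/-- The coordinates of a point are algebraic over its projection. -/
theorem definedOver_iff_proj (L₀ : IntermediateField K L) [IsAlgClosed L₀]
    (φ : L ⊗[K] A →ₐ[L] L) :
    DefinedOver L₀ (some φ) ↔ φ (1 ⊗ₜ D.e D.projDeg) ∈ L₀ := by
  refine ⟨fun h => h _, fun h => ?_⟩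
  set c : L₀ := ⟨_, h⟩
  refine definedOver_of_eq_zero D L₀ φ (t₀ := 1 ⊗ₜ D.e D.projDeg - c ⊗ₜ (1 : A)) ?_ ?_
  · intro h0
    have h1 := congrArg ((D.baseChange L₀).coeff D.projDeg) h0
    have hp : D.projDeg ∉ D.gaps := D.notMem_gaps_of_le (by simp [projDeg])
    rw [map_sub, baseChange_coeff, baseChange_coeff, D.coeff_e hp, if_pos rfl, ← D.e_zero,
      D.coeff_e D.zero_notMem, if_neg (by simp [projDeg]), map_zero] at h1
    simp at h1
  · rw [map_sub, incFun_tmul, incFun_tmul, map_sub]
    have : φ ((c : L) ⊗ₜ[K] (1 : A)) = c := φ.commutes (c : L)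
    rw [this]
    exact sub_self _

variable [IsAlgClosed L] [IsDedekindDomain (L ⊗[K] A)]

include D in
omit [IsAlgClosed K] in
/-- A class representative defined over `L₀` of the opposite class of a point. -/
theorem exists_compl (L₀ : IntermediateField K L) [IsAlgClosed L₀]
    (X : Multiset (Pt L (L ⊗[K] A))) (hX : ∀ P ∈ X, DefinedOver L₀ P) :
    ∃ Z : Multiset (Pt L (L ⊗[K] A)), cl (X + Z) = 0 ∧ ∀ P ∈ Z, DefinedOver L₀ P := by
  induction X using Multiset.induction_on with
  | empty => exact ⟨0, rfl, by simp⟩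
  | cons P X ih =>
    obtain ⟨Z, hZ, hZ'⟩ := ih fun Q hQ => hX Q (Multiset.mem_cons_of_mem hQ)
    rcases P with _ | φ
    · exact ⟨Z, by simpa [cl, pcl] using hZ, hZ'⟩
    have hφ := hX _ (Multiset.mem_cons_self ..)
    set c : L₀ := ⟨_, hφ (D.e D.projDeg)⟩
    set t₀ : L₀ ⊗[K] A := 1 ⊗ₜ D.e D.projDeg - c ⊗ₜ (1 : A)
    have hp : D.projDeg ∉ D.gaps := D.notMem_gaps_of_le (by simp [projDeg])
    have hc0 : (D.baseChange L₀).coeff D.projDeg t₀ = 1 := by
      rw [map_sub, baseChange_coeff, baseChange_coeff, D.coeff_e hp, if_pos rfl, ← D.e_zero,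
        D.coeff_e D.zero_notMem, if_neg (by simp [projDeg]), map_zero]
      simp
    set t := incFun L₀ t₀
    have ht : t ≠ 0 := fun h => by
      have := congrArg ((D.baseChange L).coeff D.projDeg) h
      rw [coeff_incFun, hc0, map_zero] at this
      simp at this
    have htlev : t ∈ (D.baseChange L).lev D.projDeg := by
      rw [(D.baseChange L).mem_lev_iff]
      intro m hm
      rw [coeff_incFun, map_sub, baseChange_coeff, baseChange_coeff, D.coeff_e hp,
        if_neg (by omega), ← D.e_zero, D.coeff_e D.zero_notMem, if_neg (by omega)]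
      simp
    have hmem : some φ ∈ (D.baseChange L).zeros D.projDeg t := by
      rw [← (D.baseChange L).evSec_eq_zero_iff ht htlev]
      show φ (incFun L₀ (1 ⊗ₜ D.e D.projDeg - c ⊗ₜ (1 : A))) = 0
      rw [map_sub, incFun_tmul, incFun_tmul, map_sub]
      have : φ ((c : L) ⊗ₜ[K] (1 : A)) = c := φ.commutes (c : L)
      rw [this]
      exact sub_self _
    obtain ⟨R, hR⟩ := Multiset.exists_cons_of_mem hmem
    refine ⟨R + Z, ?_, fun Q hQ => ?_⟩
    · have h0 := (D.baseChange L).cl_zeros (n := D.projDeg) ht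
      rw [hR] at h0
      rw [show some φ ::ₘ X + (R + Z) = (some φ ::ₘ R) + (X + Z) by
        simp only [Multiset.cons_add]; congr 1; abel, cl_add, h0, hZ, add_zero]
    · rcases Multiset.mem_add.mp hQ with hQ | hQ
      · rcases Q with _ | ψ
        · trivial
        refine definedOver_of_eq_zero D L₀ ψ (t₀ := t₀) (fun h => ?_) ?_
        · rw [h, map_zero] at hc0
          exact zero_ne_one hc0
        · have : some ψ ∈ (D.baseChange L).zeros D.projDeg t := hR ▸ Multiset.mem_cons_of_mem hQ
          exact ((D.baseChange L).evSec_eq_zero_iff ht htlev _).mpr this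
      · exact hZ' Q hQ

end CurveBasis

end Descent

namespace CurveBasis

variable {K A : Type} [Field K] [IsAlgClosed K] [CharZero K] [CommRing A] [Algebra K A]
  [IsDedekindDomain A] (D : CurveBasis K A)
variable {L : Type} [Field L] [Algebra K L] [IsAlgClosed L] [IsDedekindDomain (L ⊗[K] A)]

section Deriv

variable {L₀ : IntermediateField K L} (δ : Derivation L₀ L L)

/-- A derivation of the scalars acting on coefficients. -/
def derivFun : L ⊗[K] A →ₗ[K] L ⊗[K] A :=
  LinearMap.rTensor A (δ.toLinearMap.restrictScalars K)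

omit [IsAlgClosed K] [CharZero K] [IsDedekindDomain A] [IsAlgClosed L]
  [IsDedekindDomain (L ⊗[K] A)] in
@[simp] theorem derivFun_tmul (c : L) (f : A) : derivFun δ (c ⊗ₜ f) = δ c ⊗ₜ f := rfl

omit [IsAlgClosed K] [CharZero K] [IsDedekindDomain A] [IsAlgClosed L]
  [IsDedekindDomain (L ⊗[K] A)] in
theorem derivFun_mul (s t : L ⊗[K] A) :
    derivFun δ (s * t) = s * derivFun δ t + derivFun δ s * t := by
  induction s with
  | zero => simp
  | tmul c f =>
    induction t with
    | zero => simp
    | tmul d g =>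
      simp only [Algebra.TensorProduct.tmul_mul_tmul, derivFun_tmul, Derivation.leibniz,
        smul_eq_mul, ← TensorProduct.add_tmul]
      rw [mul_comm d (δ c)]
    | add x y hx hy => simp only [mul_add, map_add, hx, hy]; abel
  | add x y hx hy => simp only [add_mul, map_add, hx, hy]; abel

omit [IsAlgClosed K] [CharZero K] [IsDedekindDomain A] [IsAlgClosed L]
    [IsDedekindDomain (L ⊗[K] A)] in
theorem coeff_derivFun (n : ℕ) (t : L ⊗[K] A) :
    (D.baseChange L).coeff n (derivFun δ t) = δ ((D.baseChange L).coeff n t) := by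
  induction t with
  | zero => simp
  | tmul c f =>
    rw [derivFun_tmul, baseChange_coeff, baseChange_coeff, Derivation.leibniz]
    have : δ (algebraMap K L (D.coeff n f)) = 0 := by
      rw [IsScalarTower.algebraMap_apply K L₀ L]
      exact δ.map_algebraMap _
    rw [this, smul_zero, zero_add, smul_eq_mul, mul_comm]
  | add x y hx hy => simp [hx, hy]

omit [IsAlgClosed K] [CharZero K] [IsDedekindDomain A] [IsAlgClosed L]
    [IsDedekindDomain (L ⊗[K] A)] in
theorem apply_derivFun {φ : L ⊗[K] A →ₐ[L] L} (hφ : DefinedOver L₀ (some φ)) (t : L ⊗[K] A) :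
    φ (derivFun δ t) = δ (φ t) := by
  induction t with
  | zero => simp
  | tmul c f =>
    have e : ∀ d : L, φ (d ⊗ₜ f) = d * φ (1 ⊗ₜ f) := fun d => by
      rw [show d ⊗ₜ[K] f = d • ((1 : L) ⊗ₜ f) by rw [TensorProduct.smul_tmul', smul_eq_mul,
        mul_one], map_smul, smul_eq_mul]
    have : δ (φ (1 ⊗ₜ f)) = 0 := δ.map_algebraMap (⟨_, hφ f⟩ : L₀)
    rw [derivFun_tmul, e (δ c), e c, Derivation.leibniz, this, smul_zero, zero_add, smul_eq_mul, mul_comm]
  | add x y hx hy => simp [hx, hy]

omit [IsAlgClosed K] [CharZero K] [IsDedekindDomain A] [IsAlgClosed L]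
    [IsDedekindDomain (L ⊗[K] A)] in
theorem derivFun_mem_divIdeal (s : Multiset (L ⊗[K] A →ₐ[L] L))
    (hs : ∀ φ ∈ s, DefinedOver L₀ (some φ)) :
    ∀ t ∈ divIdeal s, derivFun δ t ∈ divIdeal s := by
  induction s using Multiset.induction_on with
  | empty => intro t _; simp [divIdeal]
  | cons φ s ih =>
    intro t ht
    rw [divIdeal_cons] at ht ⊢
    refine Submodule.mul_induction_on ht (fun a ha b hb => ?_) fun x y hx hy => ?_
    · rw [derivFun_mul]
      refine add_mem (Ideal.mul_mem_mul ha
        (ih (fun ψ hψ => hs ψ (Multiset.mem_cons_of_mem hψ)) b hb)) (Ideal.mul_mem_mul ?_ hb)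
      show φ _ = 0
      rw [apply_derivFun δ (hs φ (Multiset.mem_cons_self ..)), show φ a = 0 from ha, map_zero]
    · rw [map_add]
      exact add_mem hx hy

omit [IsAlgClosed K] [CharZero K] [IsDedekindDomain A] [IsAlgClosed L]
    [IsDedekindDomain (L ⊗[K] A)] in
theorem derivFun_mem_pow (I : Ideal (L ⊗[K] A)) (m : ℕ) :
    ∀ t ∈ I ^ (m + 1), derivFun δ t ∈ I ^ m := by
  induction m with
  | zero => intro t _; simp
  | succ m ih =>
    intro t ht
    rw [pow_succ] at ht
    refine Submodule.mul_induction_on ht (fun a ha b hb => ?_) fun x y hx hy => ?_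
    · rw [derivFun_mul]
      refine add_mem (Ideal.mul_mem_right _ _ ha) ?_
      rw [pow_succ]
      exact Ideal.mul_mem_mul (ih a ha) hb
    · rw [map_add]
      exact add_mem hx hy

omit [IsAlgClosed K] [CharZero K] [IsDedekindDomain A] [IsAlgClosed L]
    [IsDedekindDomain (L ⊗[K] A)] in
theorem derivFun_mem_mul (I J : Ideal (L ⊗[K] A)) (m : ℕ)
    (hJ : ∀ t ∈ J, derivFun δ t ∈ J) :
    ∀ t ∈ I ^ (m + 1) * J, derivFun δ t ∈ I ^ m * J := by
  intro t ht
  refine Submodule.mul_induction_on ht (fun a ha b hb => ?_) fun x y hx hy => ?_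
  · rw [derivFun_mul]
    exact add_mem (Ideal.mul_mem_mul (Ideal.pow_le_pow_right (Nat.le_succ m) ha) (hJ b hb))
      (Ideal.mul_mem_mul (derivFun_mem_pow δ I m a ha) hb)
  · rw [map_add]
    exact add_mem hx hy

end Deriv

omit [IsAlgClosed K] [CharZero K] [IsDedekindDomain A] [IsAlgClosed L] in
theorem none_notMem_of_minRep {E : Multiset (Pt L (L ⊗[K] A))} (hE : MinRep E) : none ∉ E := by
  intro h
  obtain ⟨E', rfl⟩ := Multiset.exists_cons_of_mem h
  have := hE E' (by simp [cl, pcl])
  simp at this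

include D in
omit [IsAlgClosed K] [IsDedekindDomain A] in
/-- The function realising a relation between a minimal divisor and a divisor over `L₀` has
coefficients in `L₀`. -/
theorem exists_coeff_mem (L₀ : IntermediateField K L) [IsAlgClosed L₀]
    {m : ℕ} (hm : 0 < m) (E W : Multiset (Pt L (L ⊗[K] A))) (hE : MinRep E)
    (hW : ∀ P ∈ W, DefinedOver L₀ P) (hrel : cl (m • E + W) = 0) :
    ∃ t : L ⊗[K] A, t ≠ 0 ∧ Ideal.span {t} = divIdeal (finPart E) ^ m * divIdeal (finPart W) ∧
      ∀ n, (D.baseChange L).coeff n t ∈ L₀ := by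
  have : CharZero L := charZero_of_injective_algebraMap (algebraMap K L).injective
  set DL := D.baseChange L
  set F := m • E + W with hF
  have hclF : cl F = 0 := hrel
  obtain ⟨t₁, ht₁, ht₁lev, ht₁z⟩ := DL.exists_zeros_eq F hclF
  -- normalise the leading coefficient
  set c := DL.coeff (DL.deg t₁) t₁
  have hc : c ≠ 0 := DL.coeff_deg_ne_zero ht₁
  set t := c⁻¹ • t₁
  have ht : t ≠ 0 := smul_ne_zero (inv_ne_zero hc) ht₁
  have htlev : t ∈ DL.lev (Multiset.card F) := Submodule.smul_mem _ _ ht₁lev
  have htz : DL.zeros (Multiset.card F) t = F := by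
    rw [DL.zeros_smul _ _ (inv_ne_zero hc), ht₁z]
  have hdeg : DL.deg t = DL.deg t₁ := by
    refine le_antisymm (DL.deg_le_of_mem_lev (Submodule.smul_mem _ _ (DL.mem_lev_deg _)))
      (DL.deg_le_of_mem_lev ?_)
    have := Submodule.smul_mem _ c (DL.mem_lev_deg t)
    rwa [smul_inv_smul₀ hc] at this
  have hlead : DL.coeff (DL.deg t) t = 1 := by
    rw [hdeg, map_smul, smul_eq_mul, inv_mul_cancel₀ hc]
  set e := finPart E
  set w := finPart W
  have hEe : e.map some = E := map_some_finPart (none_notMem_of_minRep hE)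
  have hspan : Ideal.span {t} = divIdeal e ^ m * divIdeal w := by
    rw [← DL.divIdeal_zerosFin ht, ← DL.finPart_zeros (Multiset.card F) t, htz, hF, finPart_add,
      finPart_nsmul, divIdeal_add, divIdeal_nsmul]
  have hw : ∀ φ ∈ w, DefinedOver L₀ (some φ) := by
    intro φ hφ
    exact hW _ (mem_finPart.mp hφ)
  have hder : ∀ δ : Derivation L₀ L L, derivFun δ t = 0 := by
    intro δ
    by_contra hne
    obtain ⟨k, rfl⟩ : ∃ k, m = k + 1 := ⟨m - 1, by omega⟩
    have hmem : derivFun δ t ∈ divIdeal e ^ k * divIdeal w :=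
      derivFun_mem_mul δ _ _ k (derivFun_mem_divIdeal δ w hw) t
        (hspan ▸ Ideal.mem_span_singleton_self t)
    have hdvd : Ideal.span {t} ∣ Ideal.span {derivFun δ t} * divIdeal e := by
      rw [Ideal.dvd_iff_le, hspan, pow_succ, mul_right_comm]
      exact Ideal.mul_mono ((Ideal.span_singleton_le_iff_mem _).mpr hmem) le_rfl
    obtain ⟨Q, hQ⟩ := hdvd
    have hQ0 : Q ≠ ⊥ := by
      rintro rfl
      rw [Ideal.mul_bot, ← Ideal.zero_eq_bot, mul_eq_zero] at hQ
      rcases hQ with h' | h'
      · exact hne (by simpa using h')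
      · exact DL.divIdeal_ne_bot e h'
    obtain ⟨e', rfl⟩ := DL.exists_divIdeal_eq _ hQ0
    have hcard := hQ
    rw [← DL.divIdeal_zerosFin hne, ← DL.divIdeal_zerosFin ht, ← divIdeal_add, ← divIdeal_add] at hcard
    have hcard' := congrArg Multiset.card (DL.divIdeal_injective hcard)
    rw [Multiset.card_add, Multiset.card_add, DL.card_zerosFin hne, DL.card_zerosFin ht]
      at hcard'
    have hcl : cl (e'.map some) = cl E := by
      rw [← hEe, DL.cl_eq, DL.cl_eq]
      refine congrArg _ (ClassGroup.mk0_eq_mk0_iff.mpr ⟨t, derivFun δ t, ht, hne, ?_⟩)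
      simpa using hQ.symm
    have hmin := hE _ hcl
    rw [← hEe, Multiset.card_map, Multiset.card_map] at hmin
    have hle : DL.deg (derivFun δ t) ≤ DL.deg t := by
      refine DL.deg_le_of_mem_lev (DL.mem_lev_iff.mpr fun n hn => ?_)
      rw [coeff_derivFun, (DL.mem_lev_iff).mp (DL.mem_lev_deg t) n hn, map_zero]
    have hlt : DL.deg (derivFun δ t) ≠ DL.deg t := by
      intro heq
      refine DL.coeff_deg_ne_zero hne ?_
      rw [heq, coeff_derivFun, hlead, Derivation.map_one_eq_zero]
    omega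
  exact ⟨t, ht, hspan, fun n =>
    mem_of_forall_derivation_eq_zero L₀ fun δ => by rw [← coeff_derivFun, hder δ, map_zero]⟩

include D in
omit [IsAlgClosed K] [IsDedekindDomain A] in
/-- A minimal divisor whose multiple class is defined over an algebraically closed subfield is
itself defined over it. -/
theorem definedOver_of_nsmul_cl_eq (L₀ : IntermediateField K L) [IsAlgClosed L₀]
    {m : ℕ} (hm : 0 < m) (E X Y : Multiset (Pt L (L ⊗[K] A))) (hE : MinRep E)
    (hX : ∀ P ∈ X, DefinedOver L₀ P) (hY : ∀ P ∈ Y, DefinedOver L₀ P)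
    (h : m • cl E = cl X - cl Y) : ∀ P ∈ E, DefinedOver L₀ P := by
  obtain ⟨Z, hZ, hZ'⟩ := D.exists_compl L₀ X hX
  obtain ⟨t, ht, hspan, hcoeff⟩ := D.exists_coeff_mem L₀ hm E (Y + Z) hE
    (fun P hP => (Multiset.mem_add.mp hP).elim (hY P) (hZ' P)) (by
      rw [cl_add, cl_nsmul, h, cl_add, ← hZ, cl_add]
      abel)
  obtain ⟨t₀, ht₀⟩ := exists_incFun_eq D L₀ hcoeff
  intro P hP
  rcases P with _ | φ
  · trivial
  refine definedOver_of_eq_zero D L₀ φ (t₀ := t₀) ?_ ?_
  · rintro rfl
    exact ht (by rw [← ht₀, map_zero])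
  · rw [ht₀]
    have hle : divIdeal (finPart E) ^ m * divIdeal (finPart (Y + Z)) ≤ ptIdeal φ := by
      refine (Ideal.mul_le_left).trans ((Ideal.pow_le_self hm.ne').trans ?_)
      refine Ideal.le_of_dvd ?_
      exact Multiset.dvd_prod (Multiset.mem_map.mpr ⟨φ, mem_finPart.mpr hP, rfl⟩)
    exact hle (hspan ▸ Ideal.mem_span_singleton_self t)

end CurveBasis

end Fermat.Agent.MW
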