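import Fermat.Agent.MW.Core.API
import Fermat.Agent.MW.Height.Ultra
import Fermat.Agent.MW.Weak.Rigidity

/-! # Finiteness of torsion classes

An infinite sequence of distinct `m`-torsion classes gives a minimal torsion divisor over the
ultrapower; by rigidity it is constant, so the sequence is eventually constant.
-/

set_option autoImplicit false

noncomputable section

open scoped TensorProduct Classical
open Filter Module

namespace Fermat.Agent.MW

theorem cl_univ_map {K A : Type} [Field K] [CommRing A] [Algebra K A] [IsDedekindDomain A]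
    {ι : Type} [Fintype ι] (f : ι → Pt K A) :
    cl (Finset.univ.val.map f) = ∑ i, pcl (f i) := by
  rw [cl, Multiset.map_map, Finset.sum_eq_multiset_sum]
  rfl

theorem nsmul_cl_univ_map {K A : Type} [Field K] [CommRing A] [Algebra K A] [IsDedekindDomain A]
    (m d : ℕ) (f : Fin d → Pt K A) :
    cl (Finset.univ.val.map fun k : Fin (m * d) => f (finProdFinEquiv.symm k).2) =
      m • cl (Finset.univ.val.map f) := by
  rw [cl_univ_map, cl_univ_map, ← (finProdFinEquiv (m := m) (n := d)).sum_comp
    fun k => pcl (f (finProdFinEquiv.symm k).2)]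
  simp [Fintype.sum_prod_type]

/-- A multiset as a family indexed by a `Fin`. -/
theorem exists_fin_map {α : Type} (E : Multiset α) :
    ∃ f : Fin (Multiset.card E) → α, Finset.univ.val.map f = E := by
  refine ⟨fun i => E.toList.get (i.cast (Multiset.length_toList E).symm), ?_⟩
  conv_rhs => rw [← E.coe_toList]
  rw [Fin.univ_def, Multiset.map_coe, Multiset.coe_eq_coe]
  exact List.Perm.of_eq (List.ext_get (by simp) fun i h₁ h₂ => by simp)

variable {A : Type} [CommRing A] [Algebra Qbar A] [IsDedekindDomain A] (D : CurveBasis Qbar A)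

include D in
/-- Germs of minimal representatives of one degree are minimal. -/
theorem minRep_germ [IsDedekindDomain (Omega ⊗[Qbar] A)] {d : ℕ} (E : Fin d → ℕ → Pt Qbar A)
    (h : ∀ᶠ n in (hyperfilter ℕ : Filter ℕ), MinRep (Finset.univ.val.map fun i => E i n)) :
    MinRep (Finset.univ.val.map fun i => germPt (E i)) := by
  intro E' hE'
  obtain ⟨f, hf⟩ := exists_fin_map E'
  choose Pn hPn using fun i => exists_germPt_eq D (f i)
  have hcl : cl (Finset.univ.val.map fun i => germPt (Pn i)) =
      cl (Finset.univ.val.map fun i => germPt (E i)) := by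
    rw [← hE']
    refine congrArg cl (Eq.trans ?_ hf)
    exact Multiset.map_congr rfl fun i _ => hPn i
  obtain ⟨n, hn, hmin⟩ := (((cl_germ_eq_iff D Pn E).mp hcl).and h).exists
  simpa using hmin (Finset.univ.val.map fun i => Pn i n) hn

/-- A point over `Omega` defined over `ℚ̄` is constant. -/
theorem exists_mapPt_eq_of_definedOver {A : Type} [CommRing A] [Algebra Qbar A] (P : Pt Omega (Omega ⊗[Qbar] A))
    (h : DefinedOver (⊥ : IntermediateField Qbar Omega) P) :
    ∃ Q : Pt Qbar A, mapPt Omega Q = P := by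
  rcases P with _ | φ
  · exact ⟨none, rfl⟩
  let ι : A →ₐ[Qbar] (⊥ : IntermediateField Qbar Omega) :=
    AlgHom.codRestrict ((φ.restrictScalars Qbar).comp Algebra.TensorProduct.includeRight)
      (⊥ : IntermediateField Qbar Omega).toSubalgebra h
  let ψ : A →ₐ[Qbar] Qbar := (IntermediateField.botEquiv Qbar Omega).toAlgHom.comp ι
  refine ⟨some ψ, congrArg some (Algebra.TensorProduct.ext ?_ (AlgHom.ext fun f => ?_))⟩
  · exact AlgHom.ext fun c => by simpa using (φ.commutes c).symm
  · simp only [AlgHom.coe_comp, AlgHom.coe_restrictScalars', Function.comp_apply,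
      Algebra.TensorProduct.includeRight_apply, Algebra.TensorProduct.lift_tmul, map_one, one_mul,
      Algebra.ofId_apply]
    have h1 := (IntermediateField.botEquiv Qbar Omega).symm_apply_apply (ι f)
    rw [IntermediateField.botEquiv_symm] at h1
    exact congrArg Subtype.val h1

include D in
/-- **Torsion is finite.** -/
theorem finite_torsion {m : ℕ} (hm : 0 < m) :
    {t : Additive (ClassGroup A) | m • t = 0}.Finite := by
  by_contra hinf
  obtain ⟨t, ht⟩ : ∃ t : ℕ → Additive (ClassGroup A),
      Function.Injective t ∧ ∀ n, m • t n = 0 := by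
    let e := (Set.not_finite.mp hinf).natEmbedding
    exact ⟨fun n => (e n).1, fun a b hab => e.injective (Subtype.ext hab), fun n => (e n).2⟩
  have : IsDedekindDomain (Omega ⊗[Qbar] A) := isDedekindDomain_baseChange D Omega
  have : IsAlgClosed (⊥ : IntermediateField Qbar Omega) :=
    IsAlgClosed.of_ringEquiv _ _ (IntermediateField.botEquiv Qbar Omega).symm.toRingEquiv
  have hmin : ∀ n, ∃ E : Multiset (Pt Qbar A), Multiset.card E ≤ D.genus ∧ cl E = t n ∧
      MinRep E := by
    intro n
    obtain ⟨E₀, hE₀, hcl₀⟩ := D.exists_rep (t n)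
    have hex : ∃ k, ∃ E : Multiset (Pt Qbar A), Multiset.card E = k ∧ cl E = t n :=
      ⟨_, E₀, rfl, hcl₀⟩
    obtain ⟨E, hk, hcl⟩ := Nat.find_spec hex
    refine ⟨E, hk ▸ (Nat.find_le ⟨E₀, rfl, hcl₀⟩).trans hE₀, hcl, fun E' h' => ?_⟩
    rw [hk]
    exact Nat.find_le ⟨E', rfl, h'.trans hcl⟩
  choose E hEcard hEcl hEmin using hmin
  obtain ⟨d, hd⟩ : ∃ d : Fin (D.genus + 1), ∀ᶠ n in (hyperfilter ℕ : Filter ℕ),
      Multiset.card (E n) = d := by
    rw [← Ultrafilter.eventually_exists_iff]
    exact Eventually.of_forall fun n => ⟨⟨_, Nat.lt_succ_of_le (hEcard n)⟩, rfl⟩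
  have hfam : ∀ n, ∃ f : Fin d → Pt Qbar A,
      Multiset.card (E n) = d → Finset.univ.val.map f = E n := by
    intro n
    by_cases hn : Multiset.card (E n) = d
    · obtain ⟨f, hf⟩ := exists_fin_map (E n)
      generalize Multiset.card (E n) = k at f hf hn
      subst hn
      exact ⟨f, fun _ => hf⟩
    · exact ⟨fun _ => none, fun h => absurd h hn⟩
  choose f hf using hfam
  let F : Fin d → ℕ → Pt Qbar A := fun i n => f n i
  have hmap : ∀ᶠ n in (hyperfilter ℕ : Filter ℕ),
      Finset.univ.val.map (fun i => F i n) = E n := hd.mono hf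
  have hMin : MinRep (Finset.univ.val.map fun i => germPt (F i)) :=
    minRep_germ D F (hmap.mono fun n hn => by rw [hn]; exact hEmin n)
  have hzero : m • cl (Finset.univ.val.map fun i => germPt (F i)) =
      cl (0 : Multiset (Pt Omega (Omega ⊗[Qbar] A))) -
        cl (0 : Multiset (Pt Omega (Omega ⊗[Qbar] A))) := by
    rw [sub_self, ← nsmul_cl_univ_map]
    refine Eq.trans ((cl_germ_eq_iff D (fun k : Fin (m * d) => F (finProdFinEquiv.symm k).2)
      (fun k : Fin 0 => k.elim0)).mpr (hmap.mono fun n hn => ?_)) (by simp [cl])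
    rw [nsmul_cl_univ_map m d fun i => F i n, hn, hEcl, ht.2 n]
    simp [cl]
  have hdef := D.definedOver_of_nsmul_cl_eq (⊥ : IntermediateField Qbar Omega) hm
    (Finset.univ.val.map fun i => germPt (F i)) 0 0 hMin (by simp) (by simp) hzero
  choose Q hQ using fun i => exists_mapPt_eq_of_definedOver (germPt (F i))
    (hdef _ (Multiset.mem_map_of_mem _ (Finset.mem_univ i)))
  have hconst : ∀ i, ∀ᶠ n in (hyperfilter ℕ : Filter ℕ), F i n = Q i := fun i =>
    (germPt_eq_germPt_iff D (F i) fun _ => Q i).mp (by rw [germPt_const, hQ])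
  have hev : ∀ᶠ n in (hyperfilter ℕ : Filter ℕ), t n = cl (Finset.univ.val.map Q) := by
    filter_upwards [hmap, eventually_all.mpr hconst] with n hn hQn
    rw [← hEcl, ← hn]
    exact congrArg cl (Multiset.map_congr rfl fun i _ => hQn i)
  refine Filter.notMem_hyperfilter_of_finite ?_ hev
  exact Set.Subsingleton.finite fun a ha b hb => ht.1 (ha.trans hb.symm)

end Fermat.Agent.MW
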