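import Fermat.Agent.MW.Weak.Gen
import Fermat.Agent.MW.Weak.Torsion
import Fermat.Agent.MW.Core.Canonical
import Fermat.Agent.MW.Height.Ultra

/-! # Divisibility of the class group over `ℚ̄`

A class of generic points is the `m`-th multiple of one such class, hence all of them are
multiples; every class over the ultrapower defined over `ℚ̄` is the difference of two of them,
and rigidity brings the quotient down.
-/

set_option autoImplicit false

noncomputable section

open scoped TensorProduct Classical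

namespace Fermat.Agent.MW

theorem definedOver_bot_mapPt {K A : Type} [Field K] [CommRing A] [Algebra K A] (L : Type)
    [Field L] [Algebra K L] (P : Pt K A) : DefinedOver ⊥ (mapPt L P) := by
  rcases P with _ | φ
  · trivial
  intro a
  refine IntermediateField.mem_bot.mpr ⟨φ a, ?_⟩
  simp

namespace CurveBasis

section

variable {K A L : Type} [Field K] [IsAlgClosed K] [CharZero K] [CommRing A] [Algebra K A]
  [IsDedekindDomain A] [Field L] [Algebra K L] [IsAlgClosed L] [IsDedekindDomain (L ⊗[K] A)]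
  (D : CurveBasis K A)

include D in
/-- Classes of `genus` generic points are divisible. -/
theorem exists_nsmul_cl_eq_of_gen {m : ℕ} (hm : 0 < m) (E : Multiset (Pt L (L ⊗[K] A)))
    (hE : D.Gen E) (hcard : Multiset.card E = D.genus) :
    ∃ y : Additive (ClassGroup (L ⊗[K] A)), m • y = cl E := by
  obtain ⟨ψ, hψ⟩ := exists_tuple E hE.1
  have hψi := D.indep_of_gen ψ (hψ ▸ hE)
  let φ : Fin D.genus → (L ⊗[K] A →ₐ[L] L) := fun j => ψ (j.cast hcard.symm)
  have hφi : AlgebraicIndependent K fun j => D.projOf (φ j) :=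
    hψi.comp _ (Fin.cast_injective hcard.symm)
  have hgood := D.good_of_algebraicIndependent L φ hφi
  set E₀ : Multiset (Pt L (L ⊗[K] A)) := Finset.univ.val.map fun j => some (φ j)
  have hmin : MinRep E₀ := (D.baseChange L).minRep_of_good hgood
  obtain ⟨F, -, hF, hFcard⟩ := (D.baseChange L).exists_minRep (m • cl E₀)
  have hFgenus : Multiset.card F ≤ D.genus := hFcard
  obtain ⟨h1, h2⟩ := D.gen_of_rigid hm (E := E₀) (X := F) (Y := 0) (U := 0) (T := F) hmin
    (by rw [add_zero]; exact D.gen_of_tuple φ hφi) (by rw [hF, cl_zero, sub_zero])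
    (fun P hP => Or.inl (by simpa using hP))
  have hc : Multiset.card (E₀ + 0) = D.genus := by simp [E₀]
  have hFgen := h2 (by omega)
  obtain ⟨χ, hχ⟩ := exists_tuple F hFgen.1
  have hχi := D.indep_of_gen χ (hχ ▸ hFgen)
  have hn : Multiset.card E = Multiset.card F := by omega
  obtain ⟨W, -, hW⟩ := D.exists_nsmul_cl_transport χ (fun j => ψ (j.cast hn.symm)) hχi
    (hψi.comp _ (Fin.cast_injective hn.symm)) Finset.univ.val 0 hm
    ⟨E₀, le_rfl, by rw [← hχ, Multiset.map_zero, cl_zero, sub_zero, hF]⟩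
  refine ⟨cl W, ?_⟩
  rw [hW, Multiset.map_zero, cl_zero, sub_zero]
  refine congrArg cl ?_
  conv_rhs => rw [hψ]
  generalize Multiset.card F = k at hn
  subst hn
  rfl

end

variable {A : Type} [CommRing A] [Algebra Qbar A] [IsDedekindDomain A] (D : CurveBasis Qbar A)

include D in
/-- **The class group over `ℚ̄` is divisible.** -/
theorem exists_nsmul_eq {m : ℕ} (hm : 0 < m) (x : Additive (ClassGroup A)) :
    ∃ y, m • y = x := by
  have : IsAlgClosed Omega := Omega.isAlgClosed_omega
  have : IsDedekindDomain (Omega ⊗[Qbar] A) := isDedekindDomain_baseChange D Omega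
  have : IsAlgClosed (⊥ : IntermediateField Qbar Omega) :=
    IsAlgClosed.of_ringEquiv _ _ (IntermediateField.botEquiv Qbar Omega).symm.toRingEquiv
  obtain ⟨X₀, hX₀⟩ := D.exists_cl_eq x
  set X : Multiset (Pt Omega (Omega ⊗[Qbar] A)) := X₀.map (mapPt Omega)
  have hX : ∀ P ∈ X, DefinedOver (⊥ : IntermediateField Qbar Omega) P := fun P hP => by
    obtain ⟨Q, -, rfl⟩ := Multiset.mem_map.mp hP
    exact definedOver_bot_mapPt Omega Q
  obtain ⟨t, ht⟩ := exists_algebraicIndependent_omega D.genus
  choose φ hφ using fun j => D.exists_projOf_eq (t j)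
  have hφi : AlgebraicIndependent Qbar fun j => D.projOf (φ j) := by
    simpa only [hφ] using ht
  set G : Multiset (Pt Omega (Omega ⊗[Qbar] A)) := Finset.univ.val.map fun j => some (φ j)
  have hGgen : D.Gen G := D.gen_of_tuple φ hφi
  have hGcard : Multiset.card G = D.genus := by simp [G]
  have hGmin : MinRep G :=
    (D.baseChange Omega).minRep_of_good (D.good_of_algebraicIndependent Omega φ hφi)
  obtain ⟨F, -, hF, hFcard⟩ := (D.baseChange Omega).exists_minRep (cl G + cl X)
  have hFgenus : Multiset.card F ≤ D.genus := hFcard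
  obtain ⟨h1, h2⟩ := D.gen_of_rigid one_pos (E := G) (X := F) (Y := X) (U := 0) (T := F) hGmin
    (by rw [add_zero]; exact hGgen) (by rw [hF, one_smul, add_sub_cancel_right])
    (fun P hP => by
      rw [add_zero] at hP
      exact (Multiset.mem_add.mp hP).imp id (hX P))
  rw [add_zero, hGcard] at h1 h2
  obtain ⟨y₁, hy₁⟩ := D.exists_nsmul_cl_eq_of_gen hm F (h2 hFgenus) (by omega)
  obtain ⟨y₂, hy₂⟩ := D.exists_nsmul_cl_eq_of_gen hm G hGgen hGcard
  obtain ⟨W, hWmin, hW, -⟩ := (D.baseChange Omega).exists_minRep (y₁ - y₂)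
  have hrel : m • cl W = cl X - cl (0 : Multiset (Pt Omega (Omega ⊗[Qbar] A))) := by
    rw [hW, nsmul_sub, hy₁, hy₂, hF, cl_zero, sub_zero, add_sub_cancel_left]
  have hWbot := D.definedOver_of_nsmul_cl_eq ⊥ hm W X 0 hWmin hX (by simp) hrel
  choose g hg using fun P hP => exists_mapPt_eq_of_definedOver P (hWbot P hP)
  set W₀ := W.pmap g fun _ h => h
  have hW₀ : W₀.map (mapPt Omega) = W := by
    rw [Multiset.map_pmap]
    exact (Multiset.pmap_congr W fun P hP _ _ => hg P hP).trans
      (Multiset.pmap_eq_map (fun _ => True) id W fun _ _ => trivial) |>.trans (Multiset.map_id W)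
  refine ⟨cl W₀, ?_⟩
  rw [← hX₀, ← cl_nsmul, ← D.cl_mapPt_eq_iff Omega, Multiset.map_nsmul, hW₀, cl_nsmul, hrel,
    cl_zero, sub_zero]

end CurveBasis

end Fermat.Agent.MW
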