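import Fermat.Agent.MW.Height.Defs
import Mathlib.FieldTheory.IntermediateField.Adjoin.Algebra
import Mathlib.RingTheory.UniqueFactorizationDomain.NormalizedFactors

/-!
# The Galois action on classes

The action on functions, points and ideal classes of the base change to `ℚ̄`, with finite orbits.
-/

set_option autoImplicit false

noncomputable section

open scoped TensorProduct nonZeroDivisors Classical

namespace Fermat.Agent.MW

/-- `ClassGroup.mulEquiv` on classes of integral ideals. -/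
theorem mulEquiv_mk0 {R S : Type*} [CommRing R] [IsDedekindDomain R] [CommRing S]
    [IsDedekindDomain S] (g : R ≃+* S) (I : (Ideal R)⁰) (h : (I : Ideal R).map g ∈ (Ideal S)⁰) :
    ClassGroup.mulEquiv g (ClassGroup.mk0 I) = ClassGroup.mk0 ⟨(I : Ideal R).map g, h⟩ := by
  apply (ClassGroup.equiv (R := S) (FractionRing S)).injective
  rw [ClassGroup.mulEquiv]
  simp only [MulEquiv.trans_apply, MulEquiv.apply_symm_apply, ClassGroup.equiv_mk0]
  erw [QuotientGroup.congr_mk']
  refine congrArg _ (Units.ext ?_)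
  refine SetLike.coe_injective (Set.ext fun x => ?_)
  simp only [Units.coe_mapEquiv, FractionalIdeal.coe_mk0, SetLike.mem_coe]
  change x ∈ FractionalIdeal.ringEquivOfRingEquiv _ _ g _ ↔ _
  rw [← FractionalIdeal.mem_coe, ← FractionalIdeal.val_eq_coe,
    FractionalIdeal.ringEquivOfRingEquiv_apply_val, Submodule.mem_map]
  constructor
  · rintro ⟨y, hy, rfl⟩
    obtain ⟨a, ha, rfl⟩ := (FractionalIdeal.mem_coeIdeal _).mp hy
    exact (FractionalIdeal.mem_coeIdeal _).mpr ⟨g a, Ideal.mem_map_of_mem g ha,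
      (IsFractionRing.ringEquivOfRingEquiv_algebraMap g a).symm⟩
  · intro hx
    obtain ⟨b, hb, rfl⟩ := (FractionalIdeal.mem_coeIdeal _).mp hx
    obtain ⟨a, ha, rfl⟩ := (Ideal.mem_map_of_equiv g b).mp hb
    exact ⟨algebraMap R (FractionRing R) a, (FractionalIdeal.mem_coeIdeal _).mpr ⟨a, ha, rfl⟩,
      IsFractionRing.ringEquivOfRingEquiv_algebraMap g a⟩

theorem map_mem_nonZeroDivisors {R S : Type*} [CommRing R] [IsDomain R] [CommRing S]
    [IsDomain S] (g : R ≃+* S) {I : Ideal R} (hI : I ∈ (Ideal R)⁰) :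
    I.map g ∈ (Ideal S)⁰ :=
  mem_nonZeroDivisors_iff_ne_zero.mpr fun h =>
    mem_nonZeroDivisors_iff_ne_zero.mp hI
      ((Ideal.map_eq_bot_iff_of_injective g.injective).mp h)

section Algebra

variable {K A : Type} [Field K] [CommRing A] [Algebra K A]

theorem eq_of_ptIdeal_eq {φ ψ : A →ₐ[K] K} (h : ptIdeal φ = ptIdeal ψ) : φ = ψ := by
  refine AlgHom.ext fun a => ?_
  have : a - algebraMap K A (φ a) ∈ ptIdeal φ := by simp [ptIdeal]
  rw [h] at this
  exact (sub_eq_zero.mp (by simpa [ptIdeal] using this)).symm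

/-- The finite point attached to an ideal, if any. -/
theorem zerosFin_pick (φ : A →ₐ[K] K) :
    (if h : ∃ ψ : A →ₐ[K] K, ptIdeal ψ = ptIdeal φ then some h.choose else none) = some φ := by
  have h : ∃ ψ : A →ₐ[K] K, ptIdeal ψ = ptIdeal φ := ⟨φ, rfl⟩
  rw [dif_pos h]
  exact congrArg some (eq_of_ptIdeal_eq h.choose_spec)

/-- Finitely many basis functions generate the algebra. -/
theorem CurveBasis.exists_adjoin_eq_top (D : CurveBasis K A) :
    ∃ B : ℕ, Algebra.adjoin K (D.e '' Set.Iio B) = ⊤ := by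
  set b := D.gaps.sup id + 1 with hb
  have hnot : ∀ n, b ≤ n → n ∉ D.gaps := fun n hn hmem => by
    have : id n ≤ D.gaps.sup id := Finset.le_sup hmem
    simp only [id] at this
    omega
  refine ⟨2 * b, top_le_iff.mp ?_⟩
  have hgen : ∀ n, D.e n ∈ Algebra.adjoin K (D.e '' Set.Iio (2 * b)) := by
    intro n
    induction n using Nat.strong_induction_on with
    | _ n ih =>
      rcases Nat.lt_or_ge n (2 * b) with hn | hn
      · exact Algebra.subset_adjoin ⟨n, hn, rfl⟩
      obtain ⟨c, rfl⟩ : ∃ c, n = b + c := ⟨n - b, by omega⟩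
      have hb' := hnot b le_rfl
      have hc := hnot c (by omega)
      have h := D.mul_basis b c hb' hc
      have he : ∀ m (hm : m ∉ D.gaps), D.e m = D.basis ⟨m, hm⟩ := fun m hm => dif_neg hm
      rw [he (b + c) (D.add_notMem b c hb' hc)]
      rw [← sub_sub_cancel (D.basis ⟨b, hb'⟩ * D.basis ⟨c, hc⟩)
        (D.basis ⟨b + c, D.add_notMem b c hb' hc⟩)]
      refine sub_mem (mul_mem ?_ ?_) ?_
      · exact he b hb' ▸ ih b (by omega)
      · exact he c hc ▸ ih c (by omega)
      · refine (Submodule.span_le (p := Subalgebra.toSubmodule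
          (Algebra.adjoin K (D.e '' Set.Iio (2 * b))))).mpr ?_ h
        rintro _ ⟨i, hi, rfl⟩
        exact he i.1 i.2 ▸ ih i.1 hi
  intro a _
  have hspan : Submodule.span K (Set.range D.basis) ≤
      Subalgebra.toSubmodule (Algebra.adjoin K (D.e '' Set.Iio (2 * b))) := by
    refine Submodule.span_le.mpr ?_
    rintro _ ⟨i, rfl⟩
    have : D.e i.1 = D.basis i := by rw [CurveBasis.e, dif_neg i.2]
    exact this ▸ hgen i.1
  rw [D.basis.span_eq] at hspan
  exact hspan (Submodule.mem_top (x := a))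

end Algebra

variable {A₀ : Type} [CommRing A₀] [Algebra ℚ A₀]

instance : Algebra.IsAlgebraic ℚ Qbar := AlgebraicClosure.isAlgebraic ℚ

/-- The Galois action on functions, as a ring automorphism. -/
def galFunEquiv (σ : GalQ) : Qbar ⊗[ℚ] A₀ ≃+* Qbar ⊗[ℚ] A₀ :=
  (Algebra.TensorProduct.congr σ (AlgEquiv.refl : A₀ ≃ₐ[ℚ] A₀)).toRingEquiv

theorem galFunEquiv_apply (σ : GalQ) (t : Qbar ⊗[ℚ] A₀) : galFunEquiv σ t = galFun σ t := rfl

/-- Galois conjugation on pure tensors. -/
@[simp] theorem galFun_tmul (σ : GalQ) (c : Qbar) (f : A₀) :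
    galFun σ (c ⊗ₜ f) = σ c ⊗ₜ f := rfl

/-- The identity acts trivially on functions. -/
theorem galFun_one (t : Qbar ⊗[ℚ] A₀) : galFun 1 t = t := by
  induction t with
  | zero => simp
  | tmul c f => rfl
  | add x y hx hy => rw [map_add, hx, hy]

/-- Galois conjugation of functions is an action. -/
theorem galFun_mul (σ τ : GalQ) (t : Qbar ⊗[ℚ] A₀) :
    galFun (σ * τ) t = galFun σ (galFun τ t) := by
  induction t with
  | zero => simp
  | tmul c f => rfl
  | add x y hx hy => simp only [map_add, hx, hy]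

/-- An automorphism undoes its inverse on functions. -/
theorem galFun_inv (σ : GalQ) (t : Qbar ⊗[ℚ] A₀) : galFun σ (galFun σ⁻¹ t) = t := by
  rw [← galFun_mul, mul_inv_cancel, galFun_one]

/-- A conjugate function at a conjugate point takes the conjugate value. -/
theorem galPt_some_galFun (σ : GalQ) (φ ψ : Qbar ⊗[ℚ] A₀ →ₐ[Qbar] Qbar)
    (h : galPt σ (some φ) = some ψ) (t : Qbar ⊗[ℚ] A₀) : ψ (galFun σ t) = σ (φ t) := by
  obtain rfl : _ = ψ := Option.some_injective _ h
  induction t with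
  | zero => simp
  | tmul c f =>
    rw [galFun_tmul]
    have : (c ⊗ₜ[ℚ] f : Qbar ⊗[ℚ] A₀) = c • ((1 : Qbar) ⊗ₜ f) := by
      rw [TensorProduct.smul_tmul', smul_eq_mul, mul_one]
    rw [this, map_smul, smul_eq_mul, map_mul]
    simp
  | add x y hx hy => simp only [map_add, hx, hy]

/-- The point at infinity is Galois invariant. -/
theorem galPt_none (σ : GalQ) : galPt (A₀ := A₀) σ none = none := rfl

/-- A conjugate of a finite point is finite. -/
theorem exists_galPt_eq_some (σ : GalQ) (φ : Qbar ⊗[ℚ] A₀ →ₐ[Qbar] Qbar) :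
    ∃ ψ, galPt σ (some φ) = some ψ := ⟨_, rfl⟩

theorem ptIdeal_galPt (σ : GalQ) (φ ψ : Qbar ⊗[ℚ] A₀ →ₐ[Qbar] Qbar)
    (h : galPt σ (some φ) = some ψ) : ptIdeal ψ = (ptIdeal φ).map (galFunEquiv σ) := by
  ext t
  rw [Ideal.mem_map_of_equiv (galFunEquiv σ)]
  constructor
  · intro ht
    refine ⟨galFun σ⁻¹ t, ?_, galFun_inv σ t⟩
    have : ψ t = 0 := ht
    rw [← galFun_inv σ t, galPt_some_galFun σ φ ψ h] at this
    exact σ.injective (this.trans (map_zero σ).symm)
  · rintro ⟨u, hu, rfl⟩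
    have : φ u = 0 := hu
    show ψ (galFunEquiv σ u) = 0
    rw [galFunEquiv_apply, galPt_some_galFun σ φ ψ h, this, map_zero]

/-- The stabiliser of a point contains the Galois group of a number field. -/
theorem exists_level_pt (D₀ : CurveBasis ℚ A₀) (P : Pt Qbar (Qbar ⊗[ℚ] A₀)) :
    ∃ L : IntermediateField ℚ Qbar, FiniteDimensional ℚ L ∧
      L.fixingSubgroup ≤ MulAction.stabilizer GalQ P := by
  rcases P with _ | φ
  · exact ⟨⊥, inferInstance, fun σ _ => rfl⟩
  obtain ⟨B, hB⟩ := D₀.exists_adjoin_eq_top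
  set T : Finset Qbar := (Finset.range B).image fun n => φ (1 ⊗ₜ D₀.e n) with hT
  refine ⟨IntermediateField.adjoin ℚ (T : Set Qbar),
    IntermediateField.finiteDimensional_adjoin fun x _ => Algebra.IsIntegral.isIntegral x,
    fun σ hσ => ?_⟩
  rw [IntermediateField.mem_fixingSubgroup_iff] at hσ
  obtain ⟨ψ, hψ⟩ := exists_galPt_eq_some σ φ
  have hcomp : (ψ.restrictScalars ℚ).comp (Algebra.TensorProduct.includeRight) =
      ((φ.restrictScalars ℚ).comp Algebra.TensorProduct.includeRight : A₀ →ₐ[ℚ] Qbar) := by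
    refine AlgHom.ext_of_adjoin_eq_top hB ?_
    rintro _ ⟨n, hn, rfl⟩
    simp only [AlgHom.coe_comp, AlgHom.coe_restrictScalars', Function.comp_apply,
      Algebra.TensorProduct.includeRight_apply]
    have := galPt_some_galFun σ φ ψ hψ (1 ⊗ₜ D₀.e n)
    rw [galFun_tmul, map_one] at this
    rw [this]
    refine hσ _ (IntermediateField.subset_adjoin ℚ _ ?_)
    exact Finset.mem_coe.mpr (Finset.mem_image.mpr ⟨n, Finset.mem_range.mpr hn, rfl⟩)
  show galPt σ (some φ) = some φ
  rw [hψ]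
  refine congrArg some (Algebra.TensorProduct.ext ?_ hcomp)
  exact AlgHom.ext fun c => by
    simpa using (ψ.commutes c).trans (φ.commutes c).symm

/-- A point has finitely many conjugates. -/
theorem finite_orbit_pt (D₀ : CurveBasis ℚ A₀) (P : Pt Qbar (Qbar ⊗[ℚ] A₀)) :
    (MulAction.orbit GalQ P).Finite := by
  rcases P with _ | φ
  · refine (Set.finite_singleton none).subset ?_
    rintro _ ⟨σ, rfl⟩
    rfl
  obtain ⟨B, hB⟩ := D₀.exists_adjoin_eq_top
  let val : Pt Qbar (Qbar ⊗[ℚ] A₀) → Fin B → Option Qbar := fun Q i =>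
    Q.map fun ψ => ψ (1 ⊗ₜ D₀.e i)
  have hfin : (Set.pi Set.univ fun i : Fin B =>
      (Option.some '' (minpoly ℚ (φ (1 ⊗ₜ D₀.e i))).rootSet Qbar)).Finite :=
    Set.Finite.pi fun i => (Set.toFinite _).image _
  refine Set.Finite.of_finite_image (f := val) (hfin.subset ?_) ?_
  · rintro _ ⟨_, ⟨σ, rfl⟩, rfl⟩ i -
    obtain ⟨ψ, hψ⟩ := exists_galPt_eq_some σ φ
    have := galPt_some_galFun σ φ ψ hψ (1 ⊗ₜ D₀.e i)
    rw [galFun_tmul, map_one] at this
    refine ⟨σ (φ (1 ⊗ₜ D₀.e i)), ?_, ?_⟩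
    · rw [Polynomial.mem_rootSet_of_ne (minpoly.ne_zero (Algebra.IsIntegral.isIntegral _))]
      exact (Polynomial.aeval_algHom_apply (σ : Qbar →ₐ[ℚ] Qbar) _ _).trans
        (by rw [minpoly.aeval, map_zero])
    · show _ = (galPt σ (some φ)).map _
      rw [hψ, Option.map_some, this]
  · rintro _ ⟨σ, rfl⟩ _ ⟨τ, rfl⟩ h
    obtain ⟨ψ, hψ⟩ := exists_galPt_eq_some σ φ
    obtain ⟨χ, hχ⟩ := exists_galPt_eq_some τ φ
    show galPt σ (some φ) = galPt τ (some φ)
    rw [hψ, hχ]
    refine congrArg some (Algebra.TensorProduct.ext ?_ ?_)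
    · exact AlgHom.ext fun c => by simpa using (ψ.commutes c).trans (χ.commutes c).symm
    · refine AlgHom.ext_of_adjoin_eq_top hB ?_
      rintro _ ⟨n, hn, rfl⟩
      have := congrFun h ⟨n, hn⟩
      simp only [val] at this
      rw [show (σ • some φ : Pt Qbar (Qbar ⊗[ℚ] A₀)) = some ψ from hψ,
        show (τ • some φ : Pt Qbar (Qbar ⊗[ℚ] A₀)) = some χ from hχ] at this
      simpa using this

variable (D₀ : CurveBasis ℚ A₀)

/-- Coefficients commute with Galois conjugation. -/
theorem coeff_galFun (σ : GalQ) (n : ℕ) (t : Qbar ⊗[ℚ] A₀) :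
    (D₀.baseChange Qbar).coeff n (galFun σ t) = σ ((D₀.baseChange Qbar).coeff n t) := by
  by_cases hn : n ∈ D₀.gaps
  · have : (D₀.baseChange Qbar).coeff n = 0 := dif_pos hn
    simp [this]
  · have : (D₀.baseChange Qbar).coeff n = Finsupp.lapply ⟨n, hn⟩ ∘ₗ
        (D₀.basis.baseChange Qbar).repr.toLinearMap := dif_neg hn
    rw [this]
    induction t with
    | zero => simp
    | tmul c f =>
      rw [galFun_tmul]
      simp [Algebra.smul_def, map_mul]
    | add x y hx hy => simp only [map_add, hx, hy]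

/-- Coordinates commute with Galois conjugation. -/
theorem coord_galPt (σ : GalQ) (P : Pt Qbar (Qbar ⊗[ℚ] A₀)) :
    (D₀.baseChange Qbar).coord (galPt σ P) = σ • (D₀.baseChange Qbar).coord P := by
  have hfix : ∀ i, galFun σ ((D₀.baseChange Qbar).e i) = (D₀.baseChange Qbar).e i := by
    intro i
    by_cases hi : i ∈ D₀.gaps
    · have : (D₀.baseChange Qbar).e i = 0 := dif_pos hi
      rw [this, map_zero]
    · have : (D₀.baseChange Qbar).e i = D₀.basis.baseChange Qbar ⟨i, hi⟩ := dif_neg hi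
      rw [this, Module.Basis.baseChange_apply, galFun_tmul, map_one]
  funext i
  rcases P with _ | φ
  · show (D₀.baseChange Qbar).coeff _ _ = σ ((D₀.baseChange Qbar).coeff _ _)
    rw [← coeff_galFun D₀ σ, hfix]
  · obtain ⟨ψ, hψ⟩ := exists_galPt_eq_some σ φ
    rw [hψ]
    show ψ _ = σ (φ _)
    rw [← galPt_some_galFun σ φ ψ hψ, hfix]

/-- Pole orders are Galois invariant. -/
theorem deg_galFun (σ : GalQ) (t : Qbar ⊗[ℚ] A₀) :
    (D₀.baseChange Qbar).deg (galFun σ t) = (D₀.baseChange Qbar).deg t := by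
  refine congrArg (fun s : Finset _ => s.sup Subtype.val) (Finset.ext fun i => ?_)
  have hc : ∀ u, (D₀.baseChange Qbar).coeff i.1 u = (D₀.baseChange Qbar).basis.repr u i :=
    fun u => by rw [CurveBasis.coeff, dif_neg i.2]; rfl
  rw [Finsupp.mem_support_iff, Finsupp.mem_support_iff, ← hc, ← hc, coeff_galFun,
    (map_ne_zero_iff σ σ.injective)]

variable [IsDedekindDomain (Qbar ⊗[ℚ] A₀)]

/-- The Galois action on classes. -/
def galCl (σ : GalQ) :
    Additive (ClassGroup (Qbar ⊗[ℚ] A₀)) ≃+ Additive (ClassGroup (Qbar ⊗[ℚ] A₀)) :=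
  MulEquiv.toAdditive (ClassGroup.mulEquiv (galFunEquiv σ))

theorem galCl_mk0 (σ : GalQ) (I : (Ideal (Qbar ⊗[ℚ] A₀))⁰) :
    galCl σ (Additive.ofMul (ClassGroup.mk0 I)) = Additive.ofMul (ClassGroup.mk0
      ⟨(I : Ideal (Qbar ⊗[ℚ] A₀)).map (galFunEquiv σ),
        map_mem_nonZeroDivisors _ I.2⟩) :=
  congrArg Additive.ofMul (mulEquiv_mk0 (galFunEquiv σ) I (map_mem_nonZeroDivisors _ I.2))

instance : DistribMulAction GalQ (Additive (ClassGroup (Qbar ⊗[ℚ] A₀))) where
  smul σ x := galCl σ x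
  one_smul x := by
    obtain ⟨I, hI⟩ := ClassGroup.mk0_surjective (Additive.toMul x)
    obtain rfl : Additive.ofMul (ClassGroup.mk0 I) = x := congrArg Additive.ofMul hI
    refine (galCl_mk0 1 I).trans (congrArg _ (congrArg _ (Subtype.ext ?_)))
    refine Ideal.ext fun t => ?_
    rw [Ideal.mem_map_of_equiv (galFunEquiv 1)]
    simp only [galFunEquiv_apply, galFun_one, exists_eq_right]
  mul_smul σ τ x := by
    obtain ⟨I, hI⟩ := ClassGroup.mk0_surjective (Additive.toMul x)
    obtain rfl : Additive.ofMul (ClassGroup.mk0 I) = x := congrArg Additive.ofMul hI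
    change galCl (σ * τ) _ = galCl σ (galCl τ _)
    rw [galCl_mk0, galCl_mk0, galCl_mk0]
    refine congrArg _ (congrArg _ (Subtype.ext ?_))
    refine Ideal.ext fun t => ?_
    simp only [Ideal.mem_map_of_equiv (galFunEquiv (σ * τ)), Ideal.mem_map_of_equiv (galFunEquiv σ),
      Ideal.mem_map_of_equiv (galFunEquiv τ), galFunEquiv_apply, galFun_mul]
    aesop
  smul_zero σ := map_zero (galCl σ)
  smul_add σ := map_add (galCl σ)

/-- The class of a point is Galois equivariant. -/
theorem smul_pcl (σ : GalQ) (P : Pt Qbar (Qbar ⊗[ℚ] A₀)) :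
    σ • pcl P = pcl (galPt σ P) := by
  rcases P with _ | φ
  · exact smul_zero σ
  obtain ⟨ψ, hψ⟩ := exists_galPt_eq_some σ φ
  rw [hψ]
  have hI := ptIdeal_galPt σ φ ψ hψ
  simp only [pcl]
  by_cases h : ptIdeal φ ∈ (Ideal (Qbar ⊗[ℚ] A₀))⁰
  · have h' : ptIdeal ψ ∈ (Ideal (Qbar ⊗[ℚ] A₀))⁰ := hI ▸ map_mem_nonZeroDivisors _ h
    rw [dif_pos h, dif_pos h']
    exact (galCl_mk0 σ ⟨_, h⟩).trans (congrArg _ (congrArg _ (Subtype.ext hI.symm)))
  · have h' : ptIdeal ψ ∉ (Ideal (Qbar ⊗[ℚ] A₀))⁰ := fun h' => h (by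
      rw [mem_nonZeroDivisors_iff_ne_zero] at h' ⊢
      exact fun h0 => h' (by rw [hI, h0]; exact Ideal.map_bot))
    rw [dif_neg h, dif_neg h', smul_zero]

/-- The class of a divisor is Galois equivariant. -/
theorem smul_cl (σ : GalQ) (E : Multiset (Pt Qbar (Qbar ⊗[ℚ] A₀))) :
    σ • cl E = cl (E.map (galPt σ)) := by
  rw [cl, cl, Multiset.smul_sum, Multiset.map_map, Multiset.map_map]
  exact congrArg _ (Multiset.map_congr rfl fun P _ => smul_pcl σ P)

/-- Finite zeros are Galois equivariant. -/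
theorem zerosFin_galFun (σ : GalQ) (t : Qbar ⊗[ℚ] A₀) :
    (zerosFin (galFun σ t)).map some =
      ((zerosFin (K := Qbar) t).map some).map (galPt σ) := by
  have hmap : Ideal.span {galFun σ t} =
      (Ideal.span {t}).map (galFunEquiv σ) := by
    rw [Ideal.map_span, Set.image_singleton]
    rfl
  have hfac : UniqueFactorizationMonoid.normalizedFactors (Ideal.span {galFun σ t}) =
      (UniqueFactorizationMonoid.normalizedFactors (Ideal.span {t})).map
        (Ideal.map (galFunEquiv σ)) := by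
    rcases eq_or_ne t 0 with rfl | ht
    · rw [map_zero, Ideal.span_singleton_eq_bot.mpr rfl, ← Ideal.zero_eq_bot,
        UniqueFactorizationMonoid.normalizedFactors_zero, Multiset.map_zero]
    have hne : Ideal.span {t} ≠ 0 := by simpa using ht
    conv_lhs => rw [hmap, ← Ideal.prod_normalizedFactors_eq_self hne]
    rw [show ∀ J : Ideal (Qbar ⊗[ℚ] A₀), J.map (galFunEquiv σ) =
      Ideal.mapHom (galFunEquiv σ) J from fun _ => rfl, map_multiset_prod]
    refine UniqueFactorizationMonoid.normalizedFactors_prod_of_prime fun M hM => ?_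
    obtain ⟨M', hM', rfl⟩ := Multiset.mem_map.mp hM
    have hMp := UniqueFactorizationMonoid.prime_of_normalized_factor M' hM'
    have := Ideal.isPrime_of_prime hMp
    refine Ideal.prime_of_isPrime ?_ (Ideal.map_isPrime_of_equiv (galFunEquiv σ))
    exact fun h => hMp.ne_zero ((Ideal.map_eq_bot_iff_of_injective (galFunEquiv σ).injective).mp h)
  unfold zerosFin
  rw [hfac, Multiset.filterMap_map, Multiset.map_filterMap, Multiset.map_filterMap,
    Multiset.map_filterMap]
  refine congrArg (fun f => Multiset.filterMap f _) (funext fun M => ?_)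
  simp only [Function.comp_apply]
  by_cases hM : ∃ φ : Qbar ⊗[ℚ] A₀ →ₐ[Qbar] Qbar, ptIdeal φ = M
  · obtain ⟨φ, rfl⟩ := hM
    obtain ⟨ψ, hψ⟩ := exists_galPt_eq_some σ φ
    rw [← ptIdeal_galPt σ φ ψ hψ, zerosFin_pick, zerosFin_pick]
    simp [hψ]
  · have hM' : ¬ ∃ φ : Qbar ⊗[ℚ] A₀ →ₐ[Qbar] Qbar, ptIdeal φ = M.map (galFunEquiv σ) := by
      rintro ⟨ψ, hψ⟩
      obtain ⟨φ, hφ⟩ := exists_galPt_eq_some σ⁻¹ ψ
      have hφ' : galPt σ (some φ) = some ψ := by
        rw [← hφ]
        exact smul_inv_smul σ (some ψ)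
      rw [ptIdeal_galPt σ φ ψ hφ'] at hψ
      exact hM ⟨φ, by
        rw [← Ideal.comap_map_of_bijective (galFunEquiv σ) (galFunEquiv σ).bijective (I := M),
          ← hψ, Ideal.comap_map_of_bijective (galFunEquiv σ) (galFunEquiv σ).bijective]⟩
    simp [hM, hM']

/-- Divisors of zeros are Galois equivariant. -/
theorem zeros_galFun (σ : GalQ) (n : ℕ) (t : Qbar ⊗[ℚ] A₀) :
    (D₀.baseChange Qbar).zeros n (galFun σ t) =
      ((D₀.baseChange Qbar).zeros n t).map (galPt σ) := by
  rw [CurveBasis.zeros, CurveBasis.zeros, Multiset.map_add, Multiset.map_replicate,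
    zerosFin_galFun, deg_galFun, galPt_none]

end Fermat.Agent.MW
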