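import Mathlib.RingTheory.AlgebraicIndependent.TranscendenceBasis
import Mathlib.RingTheory.AlgebraicIndependent.AlgebraicClosure
import Mathlib.FieldTheory.AlgebraicClosure
import Mathlib.Combinatorics.Matroid.Rank.ENat
import Mathlib.FieldTheory.Extension

/-!
# Counting algebraically independent elements

`n` independent elements algebraic over a finite set need at least `n` elements in it.
-/

set_option autoImplicit false

noncomputable section

open scoped Classical

namespace Fermat.Agent.MW

variable {K L : Type} [Field K] [Field L] [Algebra K L]

/-- The elements of `L` algebraic over `K(S)`. -/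
def acl (K : Type) {L : Type} [Field K] [Field L] [Algebra K L] (S : Set L) :
    IntermediateField K L :=
  (algebraicClosure (IntermediateField.adjoin K S) L).restrictScalars K

/-- Membership in the relative algebraic closure. -/
theorem mem_acl_iff {S : Set L} {x : L} :
    x ∈ acl K S ↔ IsAlgebraic (Algebra.adjoin K S) x := by
  rw [acl, IntermediateField.mem_restrictScalars, mem_algebraicClosure_iff,
    IntermediateField.isAlgebraic_adjoin_iff]

theorem mem_acl_iff_closure {S : Set L} {x : L} :
    x ∈ acl K S ↔ x ∈ (AlgebraicIndependent.matroid K L).closure S := by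
  rw [mem_acl_iff, AlgebraicIndependent.matroid_closure_eq]
  exact (Subalgebra.mem_algebraicClosure _ _).symm

/-- A set lies in its relative algebraic closure. -/
theorem subset_acl (S : Set L) : S ⊆ (acl K S : Set L) := fun x hx =>
  mem_acl_iff.mpr (isAlgebraic_algebraMap (⟨x, Algebra.subset_adjoin hx⟩ : Algebra.adjoin K S))

instance isAlgClosed_acl [IsAlgClosed L] (S : Set L) : IsAlgClosed (acl K S) :=
  (algebraicClosure.isAlgClosure (IntermediateField.adjoin K S) L).isAlgClosed

/-- `n` independent elements algebraic over finitely many elements need at least `n` of them,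
which are then independent. -/
theorem card_le_of_mem_acl {ι : Type} [Fintype ι] {x : ι → L} (hx : AlgebraicIndependent K x)
    (S : Finset L) (h : ∀ i, x i ∈ acl K (S : Set L)) :
    Fintype.card ι ≤ S.card ∧
      (S.card ≤ Fintype.card ι → AlgebraicIndepOn K id (S : Set L)) := by
  have : FaithfulSMul K L := (faithfulSMul_iff_algebraMap_injective K L).mpr
    (algebraMap K L).injective
  set M := AlgebraicIndependent.matroid K L
  have hI : M.Indep (Set.range x) :=
    AlgebraicIndependent.matroid_indep_iff.mpr hx.to_subtype_range
  have hle : (Fintype.card ι : ℕ∞) ≤ M.eRk (S : Set L) := by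
    rw [← Matroid.eRk_closure_eq]
    have h1 := hI.encard_le_eRk_of_subset
      (Set.range_subset_iff.mpr fun i => mem_acl_iff_closure.mp (h i))
    rw [← Set.image_univ, hx.injective.injOn.encard_image, Set.encard_univ,
      ENat.card_eq_coe_fintype_card] at h1
    exact h1
  have hS := M.eRk_le_encard (S : Set L)
  rw [Set.encard_coe_eq_coe_finsetCard] at hS
  refine ⟨by exact_mod_cast hle.trans hS, fun hcard => ?_⟩
  refine AlgebraicIndependent.matroid_indep_iff.mp
    ((Matroid.indep_iff_eRk_eq_encard_of_finite S.finite_toSet).mpr ?_)
  rw [Set.encard_coe_eq_coe_finsetCard]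
  exact le_antisymm hS ((by exact_mod_cast hcard : (S.card : ℕ∞) ≤ Fintype.card ι).trans hle)

/-- An element of an independent family is not algebraic over other ones. -/
theorem notMem_acl {ι : Type} {x : ι → L} (hx : AlgebraicIndependent K x) {s : Set ι} {i : ι}
    (hi : i ∉ s) : x i ∉ acl K (x '' s) := by
  rw [mem_acl_iff]
  exact hx.transcendental_adjoin hi

end Fermat.Agent.MW
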