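import Fermat.Agent.MW.Core.API

/-!
# Minimal representatives of classes

They exist, a good divisor is one, and a minimal representative is alone of its degree in its
class.
-/

set_option autoImplicit false

noncomputable section

open scoped Classical

namespace Fermat.Agent.MW.CurveBasis

variable {K A : Type} [Field K] [IsAlgClosed K] [CommRing A] [Algebra K A] [IsDedekindDomain A]
  (D : CurveBasis K A)

include D in
/-- Every class has a minimal representative of degree at most `genus`. -/
theorem exists_minRep (x : Additive (ClassGroup A)) :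
    ∃ E : Multiset (Pt K A), MinRep E ∧ cl E = x ∧ Multiset.card E ≤ D.genus := by
  have hex : ∃ n, ∃ E : Multiset (Pt K A), cl E = x ∧ Multiset.card E = n := by
    obtain ⟨E, -, hE⟩ := D.exists_rep x
    exact ⟨_, E, hE, rfl⟩
  obtain ⟨E, hE, hcard⟩ := Nat.find_spec hex
  refine ⟨E, fun E' h => hcard ▸ Nat.find_le ⟨E', h.trans hE, rfl⟩, hE, ?_⟩
  obtain ⟨E₀, h₀, hcl⟩ := D.exists_rep x
  rw [hcard]
  exact (Nat.find_le ⟨E₀, hcl, rfl⟩).trans h₀

omit [IsAlgClosed K] in
/-- A good divisor is a minimal representative. -/
theorem minRep_of_good {E : Multiset (Pt K A)} (hE : D.Good E) : MinRep E := by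
  intro E' h
  by_contra hlt
  push Not at hlt
  have := hE.2.2.2 E' (hE.2.1 ▸ hlt.le) h
  exact hlt.ne (congrArg Multiset.card this)

include D in
/-- A minimal representative is the only divisor of its degree in its class. -/
theorem minRep_unique {E E' : Multiset (Pt K A)} (hE : MinRep E) (hcl : cl E' = cl E)
    (hcard : Multiset.card E' ≤ Multiset.card E) : E' = E := by
  have hE' : MinRep E' := fun F hF => hcard.trans (hE F (hF.trans hcl))
  have hnone : ∀ {F : Multiset (Pt K A)}, MinRep F → none ∉ F := by
    intro F hF h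
    obtain ⟨F', rfl⟩ := Multiset.exists_cons_of_mem h
    have := hF F' (by simp [cl, pcl])
    simp at this
  have heq : Multiset.card E' = Multiset.card E := le_antisymm hcard (hE _ hcl)
  obtain ⟨R₀, -, hR₀⟩ := D.exists_rep (-cl E)
  set R : Multiset (Pt K A) := (finPart R₀).map some
  have hRn : none ∉ R := by simp [R]
  have hfp : ∀ F : Multiset (A →ₐ[K] K), finPart (F.map some : Multiset (Pt K A)) = F := by
    intro F
    induction F using Multiset.induction_on with
    | empty => simp [finPart]
    | cons φ F ih => simp_all [finPart]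
  have hR : cl R = -cl E := by
    rw [← hR₀]
    conv_rhs => rw [eq_finPart_add R₀, cl_add, cl_replicate_none, add_zero]
  set N := Multiset.card E + Multiset.card R
  obtain ⟨t, ht, htN, htz⟩ := D.exists_zeros_eq (E + R) (by rw [cl_add, hR, add_neg_cancel])
  obtain ⟨s, hs, hsN, hsz⟩ :=
    D.exists_zeros_eq (E' + R) (by rw [cl_add, hR, hcl, add_neg_cancel])
  rw [Multiset.card_add] at htN htz
  rw [Multiset.card_add, heq] at hsN hsz
  have hlead : D.coeff N t ≠ 0 := by
    intro h0
    have h1 := (D.evSec_eq_zero_iff ht htN (none : Pt K A)).mp h0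
    rw [htz] at h1
    exact (Multiset.mem_add.mp h1).elim (hnone hE) hRn
  set u := D.coeff N t • s - D.coeff N s • t
  have huN : u ∈ D.lev N := sub_mem (Submodule.smul_mem _ _ hsN) (Submodule.smul_mem _ _ htN)
  by_cases hu : u = 0
  · have hc : D.coeff N s ≠ 0 := by
      intro h0
      rw [show u = D.coeff N t • s - D.coeff N s • t from rfl, h0, zero_smul, sub_zero] at hu
      exact (smul_eq_zero.mp hu).elim hlead hs
    have h1 := congrArg (D.zeros N) (sub_eq_zero.mp hu)
    rw [D.zeros_smul _ _ hlead, D.zeros_smul _ _ hc, htz, hsz] at h1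
    exact add_right_cancel h1
  exfalso
  have hucoeff : D.coeff N u = 0 := by
    simp only [u, map_sub, map_smul, smul_eq_mul]
    ring
  have hdlt : D.deg u < N := lt_of_le_of_ne (D.deg_le_of_mem_lev huN) fun h =>
    D.coeff_deg_ne_zero hu (h ▸ hucoeff)
  have hmem : u ∈ divIdeal (finPart R) := by
    have key : ∀ {F : Multiset (Pt K A)} {w : A}, w ≠ 0 → D.zeros N w = F + R →
        w ∈ divIdeal (finPart R) := by
      intro F w hw hwz
      rw [D.mem_divIdeal_iff hw, ← D.finPart_zeros N w, hwz, finPart_add]
      exact Multiset.le_add_left _ _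
    exact sub_mem (Submodule.smul_of_tower_mem _ _ (key hs hsz))
      (Submodule.smul_of_tower_mem _ _ (key ht htz))
  obtain ⟨X, hX⟩ := Multiset.le_iff_exists_add.mp ((D.mem_divIdeal_iff hu).mp hmem)
  have hclX : cl (X.map some : Multiset (Pt K A)) = cl E := by
    have h0 := D.cl_zeros (n := D.deg u) hu
    rw [CurveBasis.zeros, Nat.sub_self, Multiset.replicate_zero, add_zero, hX, Multiset.map_add,
      cl_add] at h0
    have hRR : (finPart R).map some = R := congrArg (Multiset.map some) (hfp _)
    rw [hRR, hR, neg_add_eq_zero] at h0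
    exact h0.symm
  have h2 := hE _ hclX
  have h3 := congrArg Multiset.card hX
  rw [D.card_zerosFin hu, Multiset.card_add] at h3
  have h4 : Multiset.card (finPart R) = Multiset.card R := by simp [R, hfp]
  rw [Multiset.card_map] at h2
  omega

end Fermat.Agent.MW.CurveBasis
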