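import Fermat.Agent.MW.Core.Canonical
import Fermat.Agent.MW.Weak.AlgIndep
import Fermat.Agent.MW.Weak.MinRep
import Fermat.Agent.MW.Weak.Torsion

/-! # Finitely many translates putting every class in good position

Otherwise the ultrapower contains `g + 1` independent generic divisors that are all algebraic over
one divisor of degree `g` and `g + 1` divisors with fewer than `g` distinct finite points.
-/

set_option autoImplicit false

noncomputable section

open scoped TensorProduct Classical
open Filter Module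

namespace Fermat.Agent.MW

namespace CurveBasis

variable {K A : Type} [Field K] [IsAlgClosed K] [CommRing A] [Algebra K A] [IsDedekindDomain A]
  (D : CurveBasis K A)

theorem good_of_minRep {E : Multiset (Pt K A)} (hE : MinRep E)
    (hcard : Multiset.card E = D.genus) (hnd : E.Nodup) (hnone : none ∉ E) : D.Good E :=
  ⟨hnd, hcard, hnone, fun _ hle hcl => D.minRep_unique hE hcl (hcard.symm ▸ hle)⟩

/-- Every projection value is attained. -/
theorem exists_proj_eq (c : K) : ∃ φ : A →ₐ[K] K, φ (D.e D.projDeg) = c := by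
  have hp : D.projDeg ∉ D.gaps := D.exists_notMem_gaps_pos
  have hp0 : 0 < D.projDeg := Nat.succ_pos _
  set t := D.e D.projDeg - algebraMap K A c with ht
  have hc : D.coeff D.projDeg t = 1 := by
    rw [ht, map_sub, D.coeff_e hp, if_pos rfl,
      D.coeff_eq_zero_of_deg_lt (by rw [D.deg_algebraMap]; exact hp0), sub_zero]
  have ht0 : t ≠ 0 := fun h => by simp [h] at hc
  have hdeg : D.deg t = D.projDeg := D.deg_eq_of_mem_lev
    (sub_mem (D.e_mem_lev le_rfl)
      (D.lev_mono (Nat.zero_le _) (D.mem_lev_iff_deg_le.mpr (D.deg_algebraMap c).le)))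
    (by rw [hc]; exact one_ne_zero)
  obtain ⟨φ, hφ⟩ := Multiset.card_pos_iff_exists_mem.mp
    (show 0 < Multiset.card (zerosFin (K := K) t) by rw [D.card_zerosFin ht0, hdeg]; exact hp0)
  have := (D.evSec_eq_zero_iff ht0 (D.mem_lev_deg t) (some φ)).mpr
    (Multiset.mem_add.mpr (Or.inl (Multiset.mem_map_of_mem _ hφ)))
  refine ⟨φ, sub_eq_zero.mp ?_⟩
  simpa [evSec, ht] using this

/-- The projection values of the finite points of a divisor. -/
def projSet (E : Multiset (Pt K A)) : Finset K :=
  (E.filterMap fun P => P.map fun φ => φ (D.e D.projDeg)).toFinset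

omit [IsAlgClosed K] [IsDedekindDomain A] in
theorem card_projSet_le (E : Multiset (Pt K A)) : (D.projSet E).card ≤ Multiset.card E :=
  (Multiset.toFinset_card_le _).trans (by
    induction E using Multiset.induction with
    | empty => simp
    | cons a s ih => cases a <;> simp <;> omega)

omit [IsAlgClosed K] [IsDedekindDomain A] in
theorem card_projSet_lt {E : Multiset (Pt K A)} (h : ¬ (E.Nodup ∧ none ∉ E)) :
    (D.projSet E).card < Multiset.card E := by
  by_cases hnone : none ∈ E
  · obtain ⟨E', rfl⟩ := Multiset.exists_cons_of_mem hnone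
    refine lt_of_le_of_lt ?_ (Nat.lt_succ_of_le (D.card_projSet_le E')) |>.trans_eq
      (Multiset.card_cons _ _).symm
    exact le_of_eq (by simp [projSet])
  · have hnd : ¬ E.Nodup := fun hn => h ⟨hn, hnone⟩
    obtain ⟨a, ha⟩ : ∃ a, 1 < E.count a := by
      by_contra! hall
      exact hnd (Multiset.nodup_iff_count_le_one.mpr hall)
    obtain ⟨E', rfl⟩ := Multiset.exists_cons_of_mem (Multiset.count_pos.mp (by omega : 0 < E.count a))
    have ha' : a ∈ E' := Multiset.count_pos.mp (by rw [Multiset.count_cons_self] at ha; omega)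
    refine lt_of_le_of_lt ?_ (Nat.lt_succ_of_le (D.card_projSet_le E')) |>.trans_eq
      (Multiset.card_cons _ _).symm
    refine Finset.card_le_card fun z hz => ?_
    simp only [projSet, Multiset.mem_toFinset, Multiset.mem_filterMap, Multiset.mem_cons] at hz ⊢
    obtain ⟨P, hP, hPz⟩ := hz
    rcases hP with rfl | hP
    · exact ⟨P, ha', hPz⟩
    · exact ⟨P, hP, hPz⟩

end CurveBasis

variable {A : Type} [CommRing A] [Algebra Qbar A] [IsDedekindDomain A] (D : CurveBasis Qbar A)

theorem univ_map_append {α β : Type} {d d' : ℕ} (f : Fin d → α) (f' : Fin d' → α) (G : α → β) :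
    Finset.univ.val.map (fun i => G (Fin.append f f' i)) =
      Finset.univ.val.map (fun i => G (f i)) + Finset.univ.val.map (fun i => G (f' i)) := by
  rw [Fin.univ_val_map, Fin.univ_val_map, Fin.univ_val_map, Multiset.coe_add,
    ← List.ofFn_fin_append]
  exact congrArg _ (congrArg List.ofFn (funext fun i => by
    induction i using Fin.addCases with
    | left i => simp
    | right i => simp only [Fin.append_right]))

include D in
theorem cl_germ_add_eq [IsDedekindDomain (Omega ⊗[Qbar] A)] {d d' d'' : ℕ}
    (E : Fin d → ℕ → Pt Qbar A) (E' : Fin d' → ℕ → Pt Qbar A) (E'' : Fin d'' → ℕ → Pt Qbar A)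
    (h : ∀ᶠ n in (hyperfilter ℕ : Filter ℕ), cl (Finset.univ.val.map fun i => E i n) +
      cl (Finset.univ.val.map fun i => E' i n) = cl (Finset.univ.val.map fun i => E'' i n)) :
    cl (Finset.univ.val.map fun i => germPt (E i)) +
      cl (Finset.univ.val.map fun i => germPt (E' i)) =
        cl (Finset.univ.val.map fun i => germPt (E'' i)) := by
  rw [← cl_add, ← univ_map_append E E' germPt]
  refine (cl_germ_eq_iff D (Fin.append E E') E'').mpr (h.mono fun n hn => ?_)
  rw [univ_map_append E E' fun P => P n, cl_add, hn]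

include D in
/-- A class has a minimal representative, padded with points at infinity to degree `d`. -/
theorem exists_minRep_fam (y : Additive (ClassGroup A)) :
    ∃ (d : Fin (D.genus + 1)) (f : Fin d → Pt Qbar A),
      cl (Finset.univ.val.map f) = y ∧ MinRep (Finset.univ.val.map f) := by
  obtain ⟨E₀, hE₀, hcl₀⟩ := D.exists_rep y
  have hex : ∃ k, ∃ E : Multiset (Pt Qbar A), Multiset.card E = k ∧ cl E = y :=
    ⟨_, E₀, rfl, hcl₀⟩
  obtain ⟨E, hk, hcl⟩ := Nat.find_spec hex
  have hle : Multiset.card E ≤ D.genus := hk ▸ (Nat.find_le ⟨E₀, rfl, hcl₀⟩).trans hE₀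
  obtain ⟨f, hf⟩ := exists_fin_map E
  refine ⟨⟨Multiset.card E, Nat.lt_succ_of_le hle⟩, f, hf.symm ▸ hcl, hf.symm ▸ fun E' h' => ?_⟩
  rw [hk]
  exact Nat.find_le ⟨E', rfl, h'.trans hcl⟩

include D in
/-- Over `Omega`, minimal representatives of classes without good representatives have fewer
than `g` distinct projections. -/
theorem exists_small_germ [IsDedekindDomain (Omega ⊗[Qbar] A)]
    (y : ℕ → Additive (ClassGroup A))
    (hy : ∀ᶠ n in (hyperfilter ℕ : Filter ℕ), ¬ ∃ E, D.Good E ∧ cl E = y n) :
    ∃ (d : ℕ) (J : Fin d → ℕ → Pt Qbar A),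
      (∀ᶠ n in (hyperfilter ℕ : Filter ℕ), cl (Finset.univ.val.map fun i => J i n) = y n) ∧
      ((D.baseChange Omega).projSet (Finset.univ.val.map fun i => germPt (J i))).card <
        D.genus := by
  choose dn fn hfcl hfmin using fun n => exists_minRep_fam D (y n)
  obtain ⟨d, hd⟩ : ∃ d : Fin (D.genus + 1), ∀ᶠ n in (hyperfilter ℕ : Filter ℕ), dn n = d := by
    rw [← Ultrafilter.eventually_exists_iff]
    exact Eventually.of_forall fun n => ⟨dn n, rfl⟩
  have hfam : ∀ n, ∃ f : Fin d → Pt Qbar A, dn n = d →
      cl (Finset.univ.val.map f) = y n ∧ MinRep (Finset.univ.val.map f) := by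
    intro n
    by_cases hn : dn n = d
    · subst hn
      exact ⟨fn n, fun _ => ⟨hfcl n, hfmin n⟩⟩
    · exact ⟨fun _ => none, fun h => absurd h hn⟩
  choose f hf using hfam
  let J : Fin d → ℕ → Pt Qbar A := fun i n => f n i
  refine ⟨d, J, hd.mono fun n hn => (hf n hn).1, ?_⟩
  rcases Nat.lt_or_ge (d : ℕ) D.genus with hlt | hge
  · exact lt_of_le_of_lt ((D.baseChange Omega).card_projSet_le _) (by simpa using hlt)
  have hdg : (d : ℕ) = D.genus := by have := d.2; omega
  have hbad : ∀ᶠ n in (hyperfilter ℕ : Filter ℕ), ∃ p : Fin d × Fin d,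
      (p.1 ≠ p.2 ∧ J p.1 n = J p.2 n) ∨ J p.1 n = none := by
    filter_upwards [hd, hy] with n hn hng
    by_contra! hall
    have hinj : Function.Injective (f n) := fun a b hab => by
      by_contra hne
      exact ((hall (a, b)).1 hne) hab
    refine hng ⟨_, D.good_of_minRep (hf n hn).2 (by simpa using hdg)
      (Finset.univ.nodup.map hinj) (fun hmem => ?_), (hf n hn).1⟩
    obtain ⟨i, -, hi⟩ := Multiset.mem_map.mp hmem
    exact (hall (i, i)).2 hi
  rw [Ultrafilter.eventually_exists_iff] at hbad
  obtain ⟨⟨a, b⟩, hab⟩ := hbad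
  refine lt_of_lt_of_eq ((D.baseChange Omega).card_projSet_lt ?_) (by simpa using hdg)
  rintro ⟨hnd, hnone⟩
  rcases Ultrafilter.eventually_or.mp hab with h | h
  · obtain ⟨-, hne, -⟩ := h.exists
    exact hne ((Multiset.nodup_map_iff_inj_on (s := Finset.univ.val) Finset.univ.nodup).mp hnd a
      (Finset.mem_univ a) b (Finset.mem_univ b)
      ((germPt_eq_germPt_iff D (J a) (J b)).mpr (h.mono fun n hn => hn.2)))
  · refine hnone (Multiset.mem_map.mpr ⟨a, Finset.mem_univ a, ?_⟩)
    rw [(germPt_eq_germPt_iff D (J a) fun _ => none).mpr h, germPt_const]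
    rfl

include D in
/-- **Finitely many translates make every class good on both sides.** -/
theorem exists_translates :
    ∃ S : Finset (Additive (ClassGroup A)), ∀ x, ∃ c ∈ S,
      (∃ E, D.Good E ∧ cl E = x + c) ∧ (∃ E, D.Good E ∧ cl E = x - c) := by
  rcases Nat.eq_zero_or_pos D.genus with hg | hg
  · refine ⟨{0}, fun x => ⟨0, Finset.mem_singleton_self 0, ?_⟩⟩
    obtain ⟨E, hE, rfl⟩ := D.exists_rep x
    obtain rfl : E = 0 := Multiset.card_eq_zero.mp (by omega)
    have hgood : D.Good (0 : Multiset (Pt Qbar A)) :=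
      ⟨Multiset.nodup_zero, by simp [hg], Multiset.notMem_zero _,
        fun E' hE' _ => Multiset.card_eq_zero.mp (by omega)⟩
    exact ⟨⟨0, hgood, by simp⟩, ⟨0, hgood, by simp⟩⟩
  by_contra! hcon
  have : IsDedekindDomain (Omega ⊗[Qbar] A) := isDedekindDomain_baseChange D Omega
  set g := D.genus with hgdef
  -- generic divisors
  obtain ⟨x₀, hx₀⟩ := exists_algebraicIndependent_omega ((g + 1) * g)
  let ξ : Fin (g + 1) × Fin g → Omega := x₀ ∘ finProdFinEquiv
  have hξ : AlgebraicIndependent Qbar ξ := hx₀.comp _ finProdFinEquiv.injective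
  have hproj : (D.baseChange Omega).projDeg = D.projDeg := rfl
  have he : (D.baseChange Omega).e D.projDeg = (1 : Omega) ⊗ₜ[Qbar] D.e D.projDeg :=
    D.baseChange_e Omega _
  choose φ hφ using fun p : Fin (g + 1) × Fin g => (D.baseChange Omega).exists_proj_eq (ξ p)
  rw [hproj, he] at hφ
  choose P hP using fun p : Fin (g + 1) × Fin g => exists_germPt_eq D (some (φ p))
  -- bad classes
  choose x hx using fun n : ℕ => hcon (Finset.univ.image fun k : Fin (g + 1) =>
    cl (Finset.univ.val.map fun j => P (k, j) n))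
  obtain ⟨F, hF⟩ : ∃ F : Fin g → ℕ → Pt Qbar A,
      ∀ n, cl (Finset.univ.val.map fun i => F i n) = x n := by
    have : ∀ n, ∃ f : Fin g → Pt Qbar A, cl (Finset.univ.val.map f) = x n := fun n => by
      obtain ⟨E, hcard, hE⟩ := D.exists_rep_card_eq (x n) le_rfl
      obtain ⟨f, hf⟩ := exists_fin_map E
      exact ⟨fun i => f (i.cast hcard.symm), by
        rw [← hE]
        refine congrArg cl (Eq.trans ?_ hf)
        generalize Multiset.card E = k at f hcard
        subst hcard
        rfl⟩
    choose f hf using this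
    exact ⟨fun i n => f n i, hf⟩
  set GF := Finset.univ.val.map fun i => germPt (F i) with hGF
  -- the small divisors
  have hsmall : ∀ k : Fin (g + 1), ∃ (d : ℕ) (J : Fin d → ℕ → Pt Qbar A),
      ((D.baseChange Omega).projSet (Finset.univ.val.map fun i => germPt (J i))).card < g ∧
      (cl GF + cl (Finset.univ.val.map fun j => germPt (P (k, j))) =
          cl (Finset.univ.val.map fun i => germPt (J i)) ∨
        cl (Finset.univ.val.map fun i => germPt (J i)) +
            cl (Finset.univ.val.map fun j => germPt (P (k, j))) = cl GF) := by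
    intro k
    set c := fun n => cl (Finset.univ.val.map fun j => P (k, j) n) with hc
    have hor : ∀ᶠ n in (hyperfilter ℕ : Filter ℕ),
        (¬ ∃ E, D.Good E ∧ cl E = x n + c n) ∨ (¬ ∃ E, D.Good E ∧ cl E = x n - c n) :=
      Eventually.of_forall fun n => by
        by_contra! hboth
        obtain ⟨⟨E, hE, hEcl⟩, E', hE', hE'cl⟩ := hboth
        exact hx n (c n) (Finset.mem_image_of_mem _ (Finset.mem_univ k)) ⟨E, hE, hEcl⟩ E' hE' hE'cl
    rcases Ultrafilter.eventually_or.mp hor with h | h
    · obtain ⟨d, J, hJ, hcard⟩ := exists_small_germ D _ h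
      refine ⟨d, J, hcard, Or.inl (cl_germ_add_eq D F (fun j => P (k, j)) J
        (hJ.mono fun n hn => by rw [hF, hn]))⟩
    · obtain ⟨d, J, hJ, hcard⟩ := exists_small_germ D _ h
      refine ⟨d, J, hcard, Or.inr (cl_germ_add_eq D J (fun j => P (k, j)) F
        (hJ.mono fun n hn => by rw [hn, hF, sub_add_cancel]))⟩
  choose d J hJcard hJcl using hsmall
  set GJ := fun k => Finset.univ.val.map fun i => germPt (J k i) with hGJ
  set T : Finset Omega := (D.baseChange Omega).projSet GF ∪
    Finset.univ.biUnion fun k => (D.baseChange Omega).projSet (GJ k) with hT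
  have hdef : ∀ E : Multiset (Pt Omega (Omega ⊗[Qbar] A)),
      (D.baseChange Omega).projSet E ⊆ T →
      ∀ Q ∈ E, DefinedOver (acl Qbar (T : Set Omega)) Q := by
    intro E hE Q hQ
    rcases Q with _ | ψ
    · trivial
    rw [D.definedOver_iff_proj]
    refine subset_acl _ (hE ?_)
    simp only [CurveBasis.projSet, Multiset.mem_toFinset, Multiset.mem_filterMap]
    exact ⟨some ψ, hQ, by rw [Option.map_some, hproj, he]⟩
  have hmem : ∀ p, ξ p ∈ acl Qbar (T : Set Omega) := by
    rintro ⟨k, j⟩
    have hgood : (D.baseChange Omega).Good (Finset.univ.val.map fun j => germPt (P (k, j))) := by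
      rw [show (fun j => germPt (P (k, j))) = fun j => some (φ (k, j)) from
        funext fun j => hP (k, j)]
      refine D.good_of_algebraicIndependent Omega (fun j => φ (k, j)) ?_
      simp only [hφ]
      exact hξ.comp (fun j => (k, j)) fun a b h => (Prod.mk.injEq _ _ _ _ ▸ h).2
    have hmin := (D.baseChange Omega).minRep_of_good hgood
    have hF' := hdef GF Finset.subset_union_left
    have hJ' := hdef (GJ k) ((Finset.subset_biUnion_of_mem
      (fun k => (D.baseChange Omega).projSet (GJ k)) (Finset.mem_univ k)).trans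
        Finset.subset_union_right)
    have hE : DefinedOver (acl Qbar (T : Set Omega)) (some (φ (k, j))) := by
      rw [← hP (k, j)]
      rcases hJcl k with h | h
      · exact D.definedOver_of_nsmul_cl_eq _ one_pos _ (GJ k) GF hmin hJ' hF'
          (by rw [one_smul, eq_sub_iff_add_eq, add_comm]; exact h) _
          (Multiset.mem_map_of_mem _ (Finset.mem_univ j))
      · exact D.definedOver_of_nsmul_cl_eq _ one_pos _ GF (GJ k) hmin hF' hJ'
          (by rw [one_smul, eq_sub_iff_add_eq, add_comm]; exact h) _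
          (Multiset.mem_map_of_mem _ (Finset.mem_univ j))
    rw [D.definedOver_iff_proj, hφ] at hE
    exact hE
  have hcard := (card_le_of_mem_acl hξ T hmem).1
  have hTcard : T.card ≤ g + (g + 1) * (g - 1) := by
    refine (Finset.card_union_le _ _).trans (Nat.add_le_add ?_ ?_)
    · exact ((D.baseChange Omega).card_projSet_le GF).trans (by simp [hGF])
    · refine (Finset.card_biUnion_le_card_mul _ _ (g - 1) fun k _ => ?_).trans (by simp)
      have : ((D.baseChange Omega).projSet (GJ k)).card < g := hJcard k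
      omega
  simp only [Fintype.card_prod, Fintype.card_fin] at hcard
  obtain ⟨e, he'⟩ : ∃ e, g = e + 1 := ⟨g - 1, by omega⟩
  rw [he', Nat.add_sub_cancel] at hTcard
  rw [he'] at hcard
  nlinarith

end Fermat.Agent.MW
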