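import Mathlib.GroupTheory.Finiteness
import Mathlib.Algebra.Ring.Action.Submonoid

/-!
# Transfer along an equivariant isomorphism

Finite generation of the fixed points is transported by an equivariant isomorphism.
-/

set_option autoImplicit false

namespace Fermat.Agent.MW

/-- An equivariant additive isomorphism restricts to fixed points. -/
theorem fg_fixedPoints_of_equiv {G M N : Type*} [Group G] [AddCommGroup M] [AddCommGroup N]
    [DistribMulAction G M] [DistribMulAction G N] (e : M ≃+ N)
    (he : ∀ (σ : G) (x : M), e (σ • x) = σ • e x)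
    (h : AddGroup.FG ↥(FixedPoints.addSubgroup G N)) :
    AddGroup.FG ↥(FixedPoints.addSubgroup G M) := by
  have hmem : ∀ x : ↥(FixedPoints.addSubgroup G N), e.symm x.1 ∈ FixedPoints.addSubgroup G M :=
    fun x σ => e.injective (by rw [he, AddEquiv.apply_symm_apply]; exact x.2 σ)
  let f : ↥(FixedPoints.addSubgroup G N) →+ ↥(FixedPoints.addSubgroup G M) :=
    { toFun := fun x => ⟨e.symm x.1, hmem x⟩
      map_zero' := Subtype.ext (map_zero e.symm)
      map_add' := fun x y => Subtype.ext (map_add e.symm x.1 y.1) }
  refine AddGroup.fg_of_surjective (f := f) fun y => ?_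
  refine ⟨⟨e y.1, fun σ => ?_⟩, Subtype.ext (e.symm_apply_apply y.1)⟩
  rw [← he, y.2 σ]

end Fermat.Agent.MW
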