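import Mathlib.RingTheory.Etale.Field
import Mathlib.RingTheory.AlgebraicIndependent.Adjoin
import Mathlib.RingTheory.AlgebraicIndependent.TranscendenceBasis
import Mathlib.Algebra.TrivSqZeroExt.Basic
import Mathlib.RingTheory.Derivation.Basic
import Mathlib.FieldTheory.IsAlgClosed.Basic
import Mathlib.FieldTheory.Perfect

/-!
# Derivations detecting transcendental elements

In characteristic zero the elements killed by all derivations over an algebraically closed subfield
lie in it.
-/

set_option autoImplicit false

noncomputable section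

namespace Fermat.Agent.MW

open TrivSqZeroExt

/-- In characteristic zero a transcendental element has nonzero derivative for some derivation. -/
theorem exists_derivation_ne_zero {F L : Type} [Field F] [CharZero F] [Field L] [Algebra F L]
    {x : L} (hx : Transcendental F x) : ∃ δ : Derivation F L L, δ x ≠ 0 := by
  classical
  obtain ⟨B, hxB, hB⟩ := exists_isTranscendenceBasis_superset (R := F)
    (s := ({x} : Set L)) ((algebraicIndependent_unique_type_iff).mpr hx)
  have hind : AlgebraicIndependent F ((↑) : B → L) := hB.1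
  set K₀ := IntermediateField.adjoin F (Set.range ((↑) : B → L)) with hK₀
  let x₀ : B := ⟨x, hxB rfl⟩
  -- polynomials into dual numbers
  let g₀ : MvPolynomial B F →ₐ[F] TrivSqZeroExt L L :=
    MvPolynomial.aeval fun b => (inl (b : L) + inr (if b = x₀ then 1 else 0))
  have hfst : ∀ p, (g₀ p).fst = MvPolynomial.aeval ((↑) : B → L) p := by
    intro p
    have : (fstHom F L L).comp g₀ = MvPolynomial.aeval ((↑) : B → L) := by
      refine MvPolynomial.algHom_ext fun b => ?_
      simp [g₀]
    exact AlgHom.congr_fun this p
  have hunit : ∀ p : nonZeroDivisors (MvPolynomial B F), IsUnit (g₀ p) := by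
    rintro ⟨p, hp⟩
    rw [isUnit_iff_isUnit_fst, hfst, isUnit_iff_ne_zero]
    exact fun h => nonZeroDivisors.ne_zero hp
      ((algebraicIndependent_iff_injective_aeval.mp hind) (h.trans (map_zero _).symm))
  let g₁ : FractionRing (MvPolynomial B F) →ₐ[F] TrivSqZeroExt L L :=
    IsLocalization.liftAlgHom (f := g₀) hunit
  let g₂ : K₀ →ₐ[F] TrivSqZeroExt L L := g₁.comp hind.aevalEquivField.symm.toAlgHom
  let : Algebra K₀ (TrivSqZeroExt L L) := g₂.toRingHom.toAlgebra
  have halg : Algebra.IsAlgebraic K₀ L := hB.isAlgebraic_field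
  have : Algebra.FormallyEtale K₀ L := Algebra.FormallyEtale.of_isSeparable K₀ L
  have hcomm : ∀ c : K₀, (g₂ c).fst = (c : L) := by
    intro c
    obtain ⟨a, rfl⟩ := hind.aevalEquivField.surjective c
    obtain ⟨p, q, hq, rfl⟩ := IsFractionRing.div_surjective (A := MvPolynomial B F) a
    have key : ∀ p : MvPolynomial B F, (g₂ (hind.aevalEquivField (algebraMap _ _ p))).fst =
        ((hind.aevalEquivField (algebraMap _ _ p) : K₀) : L) := fun p => by
      simp [g₂, g₁, hfst]
    simp only [map_div₀]
    have h1 := key q
    have h2 := key p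
    have hq0 : ((hind.aevalEquivField (algebraMap _ _ q) : K₀) : L) ≠ 0 := by
      rw [AlgebraicIndependent.aevalEquivField_algebraMap_apply_coe]
      exact fun h => nonZeroDivisors.ne_zero hq
        ((algebraicIndependent_iff_injective_aeval.mp hind) (h.trans (map_zero _).symm))
    have hq0' : hind.aevalEquivField (algebraMap _ _ q) ≠ 0 := fun h => hq0 (by rw [h]; rfl)
    have e : g₂ (hind.aevalEquivField (algebraMap _ _ p) / hind.aevalEquivField (algebraMap _ _ q)) *
        g₂ (hind.aevalEquivField (algebraMap _ _ q)) =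
          g₂ (hind.aevalEquivField (algebraMap _ _ p)) := by
      rw [← map_mul, div_mul_cancel₀ _ hq0']
    have e' := congrArg TrivSqZeroExt.fst e
    rw [fst_mul, h1, h2] at e'
    push_cast
    rw [eq_div_iff hq0, e']
  let proj : TrivSqZeroExt L L →ₐ[K₀] L :=
    { (fstHom F L L).toRingHom with commutes' := fun c => hcomm c }
  have hsurj : Function.Surjective proj := fun l => ⟨(inl l : TrivSqZeroExt L L), fst_inl L l⟩
  have hnil : IsNilpotent (RingHom.ker (proj : TrivSqZeroExt L L →+* L)) := by
    refine ⟨2, (Submodule.pow_succ (n := 1) _).trans ?_⟩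
    rw [Submodule.pow_one, Ideal.zero_eq_bot, eq_bot_iff, Ideal.mul_le]
    intro a ha b hb
    have ha' : a.fst = 0 := ha
    have hb' : b.fst = 0 := hb
    rw [Ideal.mem_bot]
    ext <;> simp [ha', hb']
  let g : L →ₐ[K₀] TrivSqZeroExt L L :=
    Algebra.FormallySmooth.liftOfSurjective (AlgHom.id K₀ L) proj hsurj hnil
  have hg : ∀ l, (g l).fst = l := fun l =>
    Algebra.FormallySmooth.liftOfSurjective_apply (AlgHom.id K₀ L) proj hsurj hnil l
  have hgF : ∀ c : F, g (algebraMap F L c) = algebraMap F _ c := by
    intro c
    rw [IsScalarTower.algebraMap_apply F K₀ L, g.commutes]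
    exact g₂.commutes c
  have hgx : g x = g₀ (MvPolynomial.X x₀) := by
    have hc : algebraMap K₀ L (hind.aevalEquivField (algebraMap (MvPolynomial B F) _ (MvPolynomial.X x₀))) = x := by
      show ((hind.aevalEquivField (algebraMap (MvPolynomial B F) _ (MvPolynomial.X x₀)) : K₀) : L) = x
      simp [x₀]
    rw [← hc, g.commutes]
    show g₂ _ = _
    simp [g₂, g₁]
  let δ : L →ₗ[F] L :=
    { toFun := fun l => (g l).snd
      map_add' := fun a b => by simp
      map_smul' := fun c a => by simp [Algebra.smul_def, hgF, hg, TrivSqZeroExt.algebraMap_eq_inl'] }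
  refine ⟨Derivation.mk' δ fun a b => ?_, ?_⟩
  · show (g (a * b)).snd = a • (g b).snd + b • (g a).snd
    rw [map_mul, snd_mul, hg, hg, op_smul_eq_smul]
  · show (g x).snd ≠ 0
    simp [hgx, g₀]

/-- An element killed by all derivations over an algebraically closed subfield lies in it. -/
theorem mem_of_forall_derivation_eq_zero {K L : Type} [Field K] [CharZero K] [Field L]
    [Algebra K L] (L₀ : IntermediateField K L) [IsAlgClosed L₀] {x : L}
    (h : ∀ δ : Derivation L₀ L L, δ x = 0) : x ∈ L₀ := by
  by_contra hx
  have htr : Transcendental L₀ x := fun hal => by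
    obtain ⟨c, hc⟩ := IntermediateField.mem_bot.mp
      (show x ∈ (⊥ : IntermediateField L₀ L) by
        rw [← IntermediateField.adjoin_simple_eq_bot_iff]
        have := IntermediateField.isAlgebraic_adjoin_simple hal.isIntegral
        exact IntermediateField.eq_bot_of_isAlgClosed_of_isAlgebraic _)
    exact hx (hc ▸ c.2)
  have : CharZero L₀ := charZero_of_injective_algebraMap (algebraMap K L₀).injective
  obtain ⟨δ, hδ⟩ := exists_derivation_ne_zero htr
  exact hδ (h δ)

end Fermat.Agent.MW
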