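import Fermat.Agent.MW.Weak.Rigidity

/-!
# Points and classes along an embedding of the scalars

An embedding of algebraically closed fields is injective on classes, and a point with coordinates
in its image comes from a point.
-/

set_option autoImplicit false

noncomputable section

open scoped TensorProduct Classical

namespace Fermat.Agent.MW

variable {K A M L : Type} [Field K] [CommRing A] [Algebra K A] [Field M] [Algebra K M] [Field L]
  [Algebra K L] (f : M →ₐ[K] L)

/-- The image of a finite point. -/
def pushHom (φ : M ⊗[K] A →ₐ[M] M) : L ⊗[K] A →ₐ[L] L :=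
  Algebra.TensorProduct.lift (AlgHom.id L L)
    (f.comp ((φ.restrictScalars K).comp Algebra.TensorProduct.includeRight))
    (fun _ _ => Commute.all _ _)

/-- The image of a point. -/
def pushPt : Pt M (M ⊗[K] A) → Pt L (L ⊗[K] A) := Option.map (pushHom f)

/-- The pushed point on pure tensors. -/
@[simp] theorem pushHom_tmul (φ : M ⊗[K] A →ₐ[M] M) (c : L) (a : A) :
    pushHom f φ (c ⊗ₜ a) = c * f (φ (1 ⊗ₜ a)) := by simp [pushHom]

theorem pushHom_pushFun (φ : M ⊗[K] A →ₐ[M] M) (t : M ⊗[K] A) :
    pushHom f φ (pushFun f t) = f (φ t) := by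
  induction t with
  | zero => simp
  | tmul c a =>
    rw [pushFun_tmul, pushHom_tmul, ← map_mul]
    congr 1
    rw [← smul_eq_mul, ← map_smul, TensorProduct.smul_tmul', smul_eq_mul, mul_one]
  | add x y hx hy => simp [hx, hy]

/-- Applying an embedding to the coefficients is injective. -/
theorem pushFun_injective (D : CurveBasis K A) : Function.Injective (pushFun (A := A) f) := by
  rw [injective_iff_map_eq_zero]
  intro t ht
  by_contra hne
  refine (D.baseChange M).coeff_deg_ne_zero hne (f.injective ?_)
  show f _ = f 0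
  rw [← coeff_pushFun f D, ht, map_zero, map_zero]

theorem pushHom_injective : Function.Injective (pushHom (A := A) f) := by
  intro φ ψ h
  refine Algebra.TensorProduct.ext (AlgHom.ext fun c => ?_) (AlgHom.ext fun a => f.injective ?_)
  · exact (φ.commutes c).trans (ψ.commutes c).symm
  · have := DFunLike.congr_fun h ((1 : L) ⊗ₜ a)
    simp only [pushHom_tmul, one_mul] at this
    exact this

theorem finPart_map_pushPt (E : Multiset (Pt M (M ⊗[K] A))) :
    finPart (E.map (pushPt f)) = (finPart E).map (pushHom f) := by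
  induction E using Multiset.induction_on with
  | empty => simp [finPart]
  | cons P E ih => rcases P with _ | φ <;> simp_all [finPart, pushPt]

theorem definedOver_pushPt (P : Pt M (M ⊗[K] A)) : DefinedOver f.fieldRange (pushPt f P) := by
  rcases P with _ | φ
  · trivial
  · intro a
    rw [pushHom_tmul, one_mul]
    exact ⟨_, rfl⟩

/-- A point with coordinates in the image comes from a point. -/
theorem exists_pushPt_eq (P : Pt L (L ⊗[K] A)) (h : DefinedOver f.fieldRange P) :
    ∃ P', pushPt f P' = P := by
  rcases P with _ | φ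
  · exact ⟨none, rfl⟩
  let g : A →ₐ[K] M := (AlgEquiv.ofInjectiveField f).symm.toAlgHom.comp
    (AlgHom.codRestrict ((φ.restrictScalars K).comp Algebra.TensorProduct.includeRight)
      f.range fun a => h a)
  refine ⟨some (Algebra.TensorProduct.lift (AlgHom.id M M) g fun _ _ => Commute.all _ _),
    congrArg some (Algebra.TensorProduct.ext (AlgHom.ext fun c => ?_) (AlgHom.ext fun a => ?_))⟩
  · exact ((pushHom f _).commutes c).trans (φ.commutes c).symm
  · show pushHom f _ (1 ⊗ₜ a) = φ (1 ⊗ₜ a)
    rw [pushHom_tmul, one_mul, Algebra.TensorProduct.lift_tmul, map_one, one_mul]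
    exact congrArg Subtype.val ((AlgEquiv.ofInjectiveField f).apply_symm_apply _)

variable [IsAlgClosed M]

omit [IsAlgClosed M] in
theorem divIdeal_map_pushHom (s : Multiset (M ⊗[K] A →ₐ[M] M)) :
    divIdeal (s.map (pushHom f)) = (divIdeal s).map (pushFun f) := by
  induction s using Multiset.induction_on with
  | empty => simp [Ideal.map_top]
  | cons φ s ih =>
    rw [Multiset.map_cons, divIdeal_cons, divIdeal_cons, Ideal.map_mul, ih]
    congr 1
    refine le_antisymm (fun x hx => ?_) (Ideal.map_le_iff_le_comap.mpr fun t ht => ?_)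
    · have key : ∀ y : L ⊗[K] A, y - algebraMap L _ (pushHom f φ y) ∈
          (ptIdeal φ).map (pushFun f) := by
        intro y
        induction y with
        | zero => simp
        | add a b ha hb => simpa [map_add, add_sub_add_comm] using add_mem ha hb
        | tmul c a =>
          have h := Ideal.mem_map_of_mem (pushFun f)
            (sub_algebraMap_mem_ptIdeal φ ((1 : M) ⊗ₜ[K] a))
          have h2 := Ideal.mul_mem_left _ ((c : L) ⊗ₜ[K] (1 : A)) h
          have e : algebraMap M (M ⊗[K] A) (φ (1 ⊗ₜ a)) = φ (1 ⊗ₜ a) ⊗ₜ[K] (1 : A) := rfl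
          have e' : algebraMap L (L ⊗[K] A) (c * f (φ (1 ⊗ₜ a))) =
              (c * f (φ (1 ⊗ₜ a))) ⊗ₜ[K] (1 : A) := rfl
          rw [map_sub, e, pushFun_tmul, pushFun_tmul, map_one, mul_sub,
            Algebra.TensorProduct.tmul_mul_tmul, Algebra.TensorProduct.tmul_mul_tmul,
            mul_one, one_mul, one_mul] at h2
          rwa [pushHom_tmul, e']
      have := key x
      rwa [show pushHom f φ x = 0 from hx, map_zero, sub_zero] at this
    · show pushHom f φ (pushFun f t) = 0
      rw [pushHom_pushFun, show φ t = 0 from ht, map_zero]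

namespace CurveBasis

variable (D : CurveBasis K A) [IsAlgClosed L] [IsDedekindDomain (M ⊗[K] A)]
  [IsDedekindDomain (L ⊗[K] A)]

include D in
omit [IsAlgClosed M] [IsAlgClosed L] in
theorem cl_map_pushPt_eq_zero (E : Multiset (Pt M (M ⊗[K] A))) (h : cl E = 0) :
    cl (E.map (pushPt f)) = 0 := by
  rw [(D.baseChange M).cl_eq_zero_iff] at h
  rw [(D.baseChange L).cl_eq_zero_iff, finPart_map_pushPt, divIdeal_map_pushHom]
  obtain ⟨t, ht⟩ := h.principal
  exact ⟨⟨pushFun f t, by
    rw [show divIdeal (finPart E) = Ideal.span {t} from ht, Ideal.map_span, Set.image_singleton]⟩⟩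

include D in
omit [IsAlgClosed L] in
/-- Pushing divisors respects linear equivalence. -/
theorem cl_map_pushPt_congr (E E' : Multiset (Pt M (M ⊗[K] A))) (h : cl E = cl E') :
    cl (E.map (pushPt f)) = cl (E'.map (pushPt f)) := by
  obtain ⟨R, hR⟩ := (D.baseChange M).exists_cl_eq (-cl E')
  have h1 := D.cl_map_pushPt_eq_zero f (E + R) (by rw [cl_add, hR, h, add_neg_cancel])
  have h2 := D.cl_map_pushPt_eq_zero f (E' + R) (by rw [cl_add, hR, add_neg_cancel])
  rw [Multiset.map_add, cl_add] at h1 h2
  exact add_right_cancel (h1.trans h2.symm)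

include D in
/-- Embeddings of algebraically closed fields are injective on classes. -/
theorem cl_eq_zero_of_map_pushPt [IsAlgClosed K] [CharZero K] [IsDedekindDomain A]
    (E : Multiset (Pt M (M ⊗[K] A))) (h : cl (E.map (pushPt f)) = 0) : cl E = 0 := by
  have : IsAlgClosed f.fieldRange :=
    IsAlgClosed.of_ringEquiv M f.fieldRange (AlgEquiv.ofInjectiveField f).toRingEquiv
  obtain ⟨t, ht, hspan, hcoeff⟩ := D.exists_coeff_mem f.fieldRange one_pos
    (0 : Multiset (Pt L (L ⊗[K] A))) (E.map (pushPt f))
    (fun E' _ => by simp) (fun P hP => by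
      obtain ⟨Q, -, rfl⟩ := Multiset.mem_map.mp hP
      exact definedOver_pushPt f Q) (by simpa [cl] using h)
  obtain ⟨t₀, rfl⟩ := exists_pushFun_eq f D hcoeff
  have ht₀ : t₀ ≠ 0 := fun h0 => ht (by rw [h0, map_zero])
  obtain ⟨s, hs⟩ := (D.baseChange M).exists_divIdeal_eq (Ideal.span {t₀}) (by simpa using ht₀)
  have hmap := congrArg (Ideal.map (pushFun f)) hs
  rw [← divIdeal_map_pushHom, Ideal.map_span, Set.image_singleton, hspan,
    finPart_map_pushPt] at hmap
  have : s = finPart E := by
    refine Multiset.map_injective (pushHom_injective f) ((D.baseChange L).divIdeal_injective ?_)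
    simpa [finPart] using hmap
  rw [(D.baseChange M).cl_eq_zero_iff, ← this, hs]
  exact ⟨⟨t₀, rfl⟩⟩

include D in
/-- Pushing divisors reflects linear equivalence. -/
theorem cl_map_pushPt_eq_iff [IsAlgClosed K] [CharZero K] [IsDedekindDomain A]
    (E E' : Multiset (Pt M (M ⊗[K] A))) :
    cl (E.map (pushPt f)) = cl (E'.map (pushPt f)) ↔ cl E = cl E' := by
  refine ⟨fun h => ?_, D.cl_map_pushPt_congr f E E'⟩
  obtain ⟨R, hR⟩ := (D.baseChange M).exists_cl_eq (-cl E')
  have h2 := D.cl_map_pushPt_eq_zero f (E' + R) (by rw [cl_add, hR, add_neg_cancel])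
  have h1 := D.cl_eq_zero_of_map_pushPt f (E + R) (by
    rwa [Multiset.map_add, cl_add, h, ← cl_add, ← Multiset.map_add])
  rwa [cl_add, hR, add_neg_eq_zero] at h1

end CurveBasis

end Fermat.Agent.MW
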