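import Fermat.Agent.MW.Weak.Functorial
import Fermat.Agent.MW.Weak.AlgIndep
import Fermat.Agent.MW.Weak.MinRep
import Mathlib.RingTheory.Localization.FractionRing
import Mathlib.FieldTheory.Extension

/-!
# Divisors of generic points: counting and transport

Generic divisors are those with algebraically independent projections. Algebraic dependence between
such divisors forces equal degrees, and equations between their classes are transported by
embeddings of the field of definition.
-/

set_option autoImplicit false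

attribute [-instance] IntermediateField.module'

noncomputable section


open scoped TensorProduct Classical

namespace Fermat.Agent.MW.CurveBasis

variable {K A L : Type} [Field K] [CommRing A] [Algebra K A] [Field L] [Algebra K L]
  (D : CurveBasis K A)

/-- The projection of a finite point. -/
def projOf (φ : L ⊗[K] A →ₐ[L] L) : L := φ (1 ⊗ₜ D.e D.projDeg)

/-- The projections of the finite points of a divisor. -/
def projs (E : Multiset (Pt L (L ⊗[K] A))) : Multiset L := (finPart E).map D.projOf

/-- A divisor of finite points with algebraically independent projections. -/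
def Gen (E : Multiset (Pt L (L ⊗[K] A))) : Prop :=
  none ∉ E ∧ (D.projs E).Nodup ∧ AlgebraicIndepOn K id ((D.projs E).toFinset : Set L)

theorem finPart_univ_map {n : ℕ} (φ : Fin n → (L ⊗[K] A →ₐ[L] L)) :
    finPart (Finset.univ.val.map fun j => (some (φ j) : Pt L (L ⊗[K] A))) =
      Finset.univ.val.map φ := by
  have : ∀ s : Multiset (Fin n),
      finPart (s.map fun j => (some (φ j) : Pt L (L ⊗[K] A))) = s.map φ := by
    intro s
    induction s using Multiset.induction_on with
    | empty => simp [finPart]
    | cons a s ih => simp_all [finPart]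
  exact this _

/-- Genericity passes to subdivisors. -/
theorem Gen.mono {D : CurveBasis K A} {E E' : Multiset (Pt L (L ⊗[K] A))} (h : D.Gen E)
    (hle : E' ≤ E) : D.Gen E' := by
  have hp : D.projs E' ≤ D.projs E := Multiset.map_le_map (Multiset.filterMap_le_filterMap _ hle)
  exact ⟨fun hn => h.1 (Multiset.mem_of_le hle hn), Multiset.nodup_of_le hp h.2.1,
    h.2.2.mono fun x hx => by
      simp only [Finset.mem_coe, Multiset.mem_toFinset] at hx ⊢
      exact Multiset.mem_of_le hp hx⟩

/-- Algebraically independent projections give a generic divisor. -/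
theorem gen_of_tuple {n : ℕ} (φ : Fin n → (L ⊗[K] A →ₐ[L] L))
    (h : AlgebraicIndependent K fun j => D.projOf (φ j)) :
    D.Gen (Finset.univ.val.map fun j => some (φ j)) := by
  have : FaithfulSMul K L := (faithfulSMul_iff_algebraMap_injective K L).mpr
    (algebraMap K L).injective
  have hproj : D.projs (Finset.univ.val.map fun j => some (φ j)) =
      Finset.univ.val.map fun j => D.projOf (φ j) := by
    rw [projs, finPart_univ_map, Multiset.map_map]
    rfl
  refine ⟨by simp, by rw [hproj]; exact Finset.univ.nodup.map h.injective, ?_⟩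
  refine h.to_subtype_range.mono ?_
  rw [hproj]
  intro x hx
  simp only [Finset.mem_coe, Multiset.mem_toFinset, Multiset.mem_map] at hx
  obtain ⟨j, -, rfl⟩ := hx
  exact ⟨j, rfl⟩

/-- The projections of a generic divisor are algebraically independent. -/
theorem indep_of_gen {n : ℕ} (φ : Fin n → (L ⊗[K] A →ₐ[L] L))
    (h : D.Gen (Finset.univ.val.map fun j => some (φ j))) :
    AlgebraicIndependent K fun j => D.projOf (φ j) := by
  have hproj : D.projs (Finset.univ.val.map fun j => some (φ j)) =
      Finset.univ.val.map fun j => D.projOf (φ j) := by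
    rw [projs, finPart_univ_map, Multiset.map_map]
    rfl
  obtain ⟨-, hnd, hind⟩ := h
  rw [hproj] at hnd hind
  have hinj : Function.Injective fun j => D.projOf (φ j) := fun i j hij =>
    (Multiset.inj_on_of_nodup_map hnd) i (Finset.mem_univ i) j (Finset.mem_univ j) hij
  exact hind.comp (fun j => (⟨D.projOf (φ j), by simp⟩ :
      (((Finset.univ.val.map fun j => D.projOf (φ j)).toFinset : Finset L) : Set L)))
    fun i j hij => hinj (congrArg Subtype.val hij)

/-- A divisor of finite points is given by a tuple of points. -/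
theorem exists_tuple (E : Multiset (Pt L (L ⊗[K] A))) (hE : none ∉ E) :
    ∃ φ : Fin (Multiset.card E) → (L ⊗[K] A →ₐ[L] L),
      E = Finset.univ.val.map fun j => some (φ j) := by
  have hl : E.toList.length = Multiset.card E := Multiset.length_toList E
  have hsome : ∀ i : Fin (Multiset.card E), ∃ φ, E.toList.get (i.cast hl.symm) = some φ := by
    intro i
    rcases h : E.toList.get (i.cast hl.symm) with _ | φ
    · exact (hE (Multiset.mem_toList.mp (h ▸ List.get_mem _ _))).elim
    · exact ⟨φ, rfl⟩
  choose φ hφ using hsome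
  refine ⟨φ, ?_⟩
  simp only [← hφ]
  rw [Fin.univ_val_map]
  conv_lhs => rw [← Multiset.coe_toList E]
  exact congrArg (fun l : List (Pt L (L ⊗[K] A)) => (l : Multiset (Pt L (L ⊗[K] A))))
    (List.ext_get (by simp [hl]) fun i _ _ => by simp)

variable [IsAlgClosed K] [IsAlgClosed L]

omit [IsAlgClosed K] in
/-- A point is defined over the closure of the projections of a divisor containing it. -/
theorem definedOver_acl_projs {T : Multiset (Pt L (L ⊗[K] A))} {P : Pt L (L ⊗[K] A)}
    (hP : P ∈ T ∨ DefinedOver ⊥ P) :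
    DefinedOver (acl K ((D.projs T).toFinset : Set L)) P := by
  rcases P with _ | φ
  · trivial
  rcases hP with hP | hP
  · rw [D.definedOver_iff_proj]
    exact subset_acl _ (by
      simpa [projs] using ⟨φ, mem_finPart.mpr hP, rfl⟩)
  · exact fun a => bot_le (a := acl K ((D.projs T).toFinset : Set L)) (hP a)

omit [IsAlgClosed K] [IsAlgClosed L] in
/-- Generic points algebraic over the projections of a divisor of no larger degree make it
generic. -/
theorem gen_of_definedOver {E T : Multiset (Pt L (L ⊗[K] A))} (hE : D.Gen E)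
    (h : ∀ P ∈ E, DefinedOver (acl K ((D.projs T).toFinset : Set L)) P) :
    Multiset.card E ≤ Multiset.card T ∧ (Multiset.card T ≤ Multiset.card E → D.Gen T) := by
  obtain ⟨hnone, hnd, hind⟩ := hE
  have hcE : (D.projs E).toFinset.card = Multiset.card E := by
    rw [Multiset.toFinset_card_of_nodup hnd, projs, Multiset.card_map, card_eq_finPart_add E,
      Multiset.count_eq_zero_of_notMem hnone, add_zero]
  have hT1 := (D.projs T).toFinset_card_le
  have hT2 : Multiset.card (D.projs T) = Multiset.card (finPart T) := by simp [projs]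
  have hT3 := card_eq_finPart_add T
  obtain ⟨h1, h2⟩ := card_le_of_mem_acl
    (x := fun x : ((D.projs E).toFinset : Set L) => (x : L)) hind (D.projs T).toFinset
    (fun x => by
      obtain ⟨y, hy⟩ := x
      simp only [Finset.mem_coe, Multiset.mem_toFinset, projs, Multiset.mem_map] at hy
      obtain ⟨φ, hφ, rfl⟩ := hy
      exact h _ (mem_finPart.mp hφ) _)
  simp only [Finset.coe_sort_coe, Fintype.card_coe, hcE] at h1 h2
  refine ⟨by omega, fun hle => ⟨?_, ?_, h2 (by omega)⟩⟩
  · exact Multiset.count_eq_zero.mp (by omega)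
  · exact Multiset.toFinset_card_eq_card_iff_nodup.mp (by omega)

variable [CharZero K] [IsDedekindDomain A] [IsDedekindDomain (L ⊗[K] A)]

omit [IsAlgClosed K] [IsDedekindDomain A] in
/-- Rigidity and counting: a divisor whose points determine a minimal divisor of generic
points, up to its degree, is itself generic. -/
theorem gen_of_rigid {m : ℕ} (hm : 0 < m) {E X Y U T : Multiset (Pt L (L ⊗[K] A))}
    (hmin : MinRep E) (hgen : D.Gen (E + U)) (hrel : m • cl E = cl X - cl Y)
    (hmem : ∀ P ∈ X + Y + U, P ∈ T ∨ DefinedOver ⊥ P) :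
    Multiset.card (E + U) ≤ Multiset.card T ∧
      (Multiset.card T ≤ Multiset.card (E + U) → D.Gen T) := by
  refine D.gen_of_definedOver hgen fun P hP => ?_
  rcases Multiset.mem_add.mp hP with hP | hP
  · exact D.definedOver_of_nsmul_cl_eq _ hm E X Y hmin
      (fun Q hQ => D.definedOver_acl_projs (hmem Q (by simp [hQ])))
      (fun Q hQ => D.definedOver_acl_projs (hmem Q (by simp [hQ]))) hrel P hP
  · exact D.definedOver_acl_projs (hmem P (by simp [hP]))

omit [CharZero K] [IsDedekindDomain A] [IsDedekindDomain (L ⊗[K] A)] in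
include D in
omit [IsAlgClosed K] [IsAlgClosed L] in
/-- A point outside an algebraically closed subfield kills no nonzero function over it. -/
theorem apply_incFun_ne_zero (L₀ : IntermediateField K L) [IsAlgClosed L₀]
    (φ : L ⊗[K] A →ₐ[L] L) (h : D.projOf φ ∉ L₀) {t : L₀ ⊗[K] A} (ht : t ≠ 0) :
    φ (incFun L₀ t) ≠ 0 :=
  fun h0 => h ((definedOver_of_eq_zero D L₀ φ ht h0) _)

omit [CharZero K] [IsDedekindDomain A] [IsDedekindDomain (L ⊗[K] A)] [IsAlgClosed K] in
/-- Two tuples of generic points differ by an embedding of the field of definition. -/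
theorem exists_algHom_tuple : ∀ (n : ℕ) (φ ψ : Fin n → (L ⊗[K] A →ₐ[L] L)),
    (AlgebraicIndependent K fun j => D.projOf (φ j)) →
    (AlgebraicIndependent K fun j => D.projOf (ψ j)) →
    ∃ f : acl K (Set.range fun j => D.projOf (φ j)) →ₐ[K] L,
      ∀ (j : Fin n) (a : A) (h : φ j (1 ⊗ₜ a) ∈ acl K (Set.range fun j => D.projOf (φ j))),
        f ⟨_, h⟩ = ψ j (1 ⊗ₜ a) := by
  intro n
  induction n with
  | zero => exact fun φ ψ _ _ => ⟨IntermediateField.val _, fun j => j.elim0⟩
  | succ n ih =>
    intro φ ψ hφ hψ
    have : FaithfulSMul K L := (faithfulSMul_iff_algebraMap_injective K L).mpr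
      (algebraMap K L).injective
    have ihn := ih (fun j => φ j.castSucc) (fun j => ψ j.castSucc)
      (hφ.comp _ (Fin.castSucc_injective n)) (hψ.comp _ (Fin.castSucc_injective n))
    clear ih
    set S := Set.range fun j : Fin n => D.projOf (φ j.castSucc) with hSdef
    set M := acl K S with hMdef
    obtain ⟨f, hf⟩ := ihn
    have : IsAlgClosed f.fieldRange :=
      IsAlgClosed.of_ringEquiv M f.fieldRange (AlgEquiv.ofInjectiveField f).toRingEquiv
    have hlastφ : D.projOf (φ (Fin.last n)) ∉ M := by
      have hS : S = (fun j => D.projOf (φ j)) '' Set.range (Fin.castSucc : Fin n → Fin (n + 1)) :=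
        Set.range_comp' (fun j => D.projOf (φ j)) Fin.castSucc
      rw [show M = acl K S from rfl, hS]
      exact notMem_acl hφ fun ⟨j, hj⟩ => (Fin.castSucc_lt_last j).ne hj
    have hlastψ : D.projOf (ψ (Fin.last n)) ∉ f.fieldRange := by
      rintro ⟨y, hy⟩
      let u : Fin (n + 1) → M := Fin.snoc
        (fun j => ⟨D.projOf (φ j.castSucc), subset_acl _ ⟨j, rfl⟩⟩) y
      have hfu : (f ∘ u : Fin (n + 1) → L) = fun j => D.projOf (ψ j) := by
        funext j
        refine Fin.lastCases ?_ (fun i => ?_) j
        · show f (u (Fin.last n)) = _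
          rw [show u (Fin.last n) = y from Fin.snoc_last _ _]
          exact hy
        · show f (u i.castSucc) = _
          rw [show u i.castSucc = _ from Fin.snoc_castSucc _ _ _]
          exact hf i (D.e D.projDeg) (subset_acl _ ⟨i, rfl⟩)
      have hu : AlgebraicIndependent K u := AlgebraicIndependent.of_comp f (by rw [hfu]; exact hψ)
      have hu' : AlgebraicIndependent K (M.val ∘ u) := hu.map' Subtype.val_injective
      have := (card_le_of_mem_acl hu'
        (Finset.univ.image fun j : Fin n => D.projOf (φ j.castSucc)) fun i => by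
          rw [Finset.coe_image, Finset.coe_univ, Set.image_univ]
          exact (u i).2).1
      have h2 := (Finset.card_image_le (s := (Finset.univ : Finset (Fin n)))
        (f := fun j : Fin n => D.projOf (φ j.castSucc)))
      simp only [Fintype.card_fin, Finset.card_univ] at this h2
      omega
    -- the two maps out of the coordinate ring over `M`
    let ρ : M ⊗[K] A →ₐ[K] L := ((φ (Fin.last n)).restrictScalars K).comp (incFun M)
    let σ : M ⊗[K] A →ₐ[K] L := ((ψ (Fin.last n)).restrictScalars K).comp (pushFun f)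
    have hρ : Function.Injective ρ := by
      rw [injective_iff_map_eq_zero]
      intro t ht
      by_contra h0
      exact D.apply_incFun_ne_zero M _ hlastφ h0 ht
    have hσ : Function.Injective σ := by
      rw [injective_iff_map_eq_zero]
      intro t ht
      by_contra h0
      obtain ⟨t₁, ht₁⟩ := exists_incFun_eq D f.fieldRange (t := pushFun f t) fun k => by
        rw [coeff_pushFun]
        exact ⟨_, rfl⟩
      have h1 : t₁ ≠ 0 := fun h => h0 (pushFun_injective f D (by rw [← ht₁, h, map_zero, map_zero]))
      exact D.apply_incFun_ne_zero f.fieldRange _ hlastψ h1 (by rw [ht₁]; exact ht)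
    have : IsDomain (M ⊗[K] A) := Function.Injective.isDomain ρ hρ
    let Q := FractionRing (M ⊗[K] A)
    let ρ' : Q →ₐ[K] L := IsFractionRing.liftAlgHom hρ
    let σ' : Q →ₐ[K] L := IsFractionRing.liftAlgHom hσ
    let : Algebra Q L := ρ'.toRingHom.toAlgebra
    have : IsScalarTower K Q L := IsScalarTower.of_algebraMap_eq fun c => (ρ'.commutes c).symm
    set S' := Set.range fun j => D.projOf (φ j)
    have hρ' : ∀ x : M ⊗[K] A, algebraMap Q L (algebraMap _ Q x) = ρ x := fun x =>
      IsFractionRing.lift_algebraMap hρ x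
    have hσ' : ∀ x : M ⊗[K] A, σ' (algebraMap _ Q x) = σ x := fun x =>
      IsFractionRing.lift_algebraMap hσ x
    have hM : ∀ (c : M), ρ (c ⊗ₜ 1) = c := fun c => (φ (Fin.last n)).commutes (c : L)
    have hlast : ∀ a : A, ρ (1 ⊗ₜ a) = φ (Fin.last n) (1 ⊗ₜ a) := fun a => by
      show φ (Fin.last n) (incFun M (1 ⊗ₜ a)) = _
      rw [incFun_tmul]
      rfl
    have hS' : S' ⊆ (ρ'.fieldRange : Set L) := by
      rintro _ ⟨j, rfl⟩
      refine Fin.lastCases ⟨_, (hρ' _).trans (hlast _)⟩ (fun i => ?_) j
      exact ⟨_, (hρ' _).trans (hM ⟨D.projOf (φ i.castSucc), subset_acl _ ⟨i, rfl⟩⟩)⟩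
    have hint : ∀ s ∈ (acl K S' : Set L),
        IsIntegral Q s ∧ ((minpoly Q s).map σ'.toRingHom).Splits := by
      intro s hs
      refine ⟨IsAlgebraic.isIntegral ?_, IsAlgClosed.splits _⟩
      have hle : Algebra.adjoin K S' ≤ ρ'.fieldRange.toSubalgebra := Algebra.adjoin_le hS'
      let g : Algebra.adjoin K S' →+* Q :=
        ((AlgEquiv.ofInjectiveField ρ').symm.toAlgHom.comp (Subalgebra.inclusion hle)).toRingHom
      refine IsAlgebraic.ringHom_of_comp_eq g (RingHom.id L) (mem_acl_iff.mp hs)
        ((AlgEquiv.ofInjectiveField ρ').symm.injective.comp (Subalgebra.inclusion_injective hle)) ?_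
      refine RingHom.ext fun x => ?_
      show ρ' ((AlgEquiv.ofInjectiveField ρ').symm (Subalgebra.inclusion hle x)) = (x : L)
      exact congrArg Subtype.val ((AlgEquiv.ofInjectiveField ρ').apply_symm_apply _)
    obtain ⟨F, hF⟩ := IntermediateField.exists_algHom_adjoin_of_splits' σ' hint
    have hF' : ∀ (x : L) (h : x ∈ IntermediateField.adjoin Q (acl K S' : Set L)) (q : Q),
        algebraMap Q L q = x → F ⟨x, h⟩ = σ' q := by
      intro x h q hq
      subst hq
      exact DFunLike.congr_fun hF q
    let ι : acl K S' →ₐ[K] IntermediateField.adjoin Q (acl K S' : Set L) :=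
      { toFun := fun x => ⟨x.1, IntermediateField.subset_adjoin _ _ x.2⟩
        map_one' := rfl
        map_mul' := fun _ _ => rfl
        map_zero' := rfl
        map_add' := fun _ _ => rfl
        commutes' := fun c => Subtype.ext rfl }
    refine ⟨F.comp ι, fun j a h => ?_⟩
    refine Fin.lastCases (fun h => ?_) (fun i h => ?_) j h
    · refine (hF' _ _ _ ((hρ' (1 ⊗ₜ a)).trans (hlast a))).trans ((hσ' _).trans ?_)
      show ψ (Fin.last n) (pushFun f (1 ⊗ₜ a)) = _
      rw [pushFun_tmul, map_one]
    · have hi : φ i.castSucc (1 ⊗ₜ a) ∈ M :=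
        ((D.definedOver_iff_proj M _).mpr (subset_acl _ ⟨i, rfl⟩)) a
      refine (hF' _ _ _ ((hρ' _).trans (hM ⟨_, hi⟩))).trans ((hσ' _).trans ?_)
      show ψ (Fin.last n) (pushFun f (⟨_, hi⟩ ⊗ₜ 1)) = _
      rw [pushFun_tmul, hf i a hi]
      exact (ψ (Fin.last n)).commutes _

/-- Solvability of an equation between classes of generic points does not depend on the
points. -/
theorem exists_nsmul_cl_transport {n : ℕ} (φ ψ : Fin n → (L ⊗[K] A →ₐ[L] L))
    (hφ : AlgebraicIndependent K fun j => D.projOf (φ j))
    (hψ : AlgebraicIndependent K fun j => D.projOf (ψ j)) (a b : Multiset (Fin n))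
    {m d : ℕ} (hm : 0 < m)
    (h : ∃ W : Multiset (Pt L (L ⊗[K] A)), Multiset.card W ≤ d ∧
      m • cl W = cl (a.map fun j => some (φ j)) - cl (b.map fun j => some (φ j))) :
    ∃ W : Multiset (Pt L (L ⊗[K] A)), Multiset.card W ≤ d ∧
      m • cl W = cl (a.map fun j => some (ψ j)) - cl (b.map fun j => some (ψ j)) := by
  obtain ⟨W₀, hW₀, hrel₀⟩ := h
  obtain ⟨W, hWmin, hWcl, -⟩ := (D.baseChange L).exists_minRep (cl W₀)
  have hcard : Multiset.card W ≤ d := (hWmin W₀ hWcl.symm).trans hW₀
  rw [← hWcl] at hrel₀
  have htup := D.exists_algHom_tuple n φ ψ hφ hψ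
  set S := Set.range fun j => D.projOf (φ j) with hSdef
  set M := acl K S with hMdef
  obtain ⟨f, hf⟩ := htup
  have : IsDedekindDomain (M ⊗[K] A) := isDedekindDomain_baseChange D M
  have hmemφ : ∀ j, DefinedOver M (some (φ j) : Pt L (L ⊗[K] A)) := fun j =>
    (D.definedOver_iff_proj M _).mpr (subset_acl _ ⟨j, rfl⟩)
  have hval : ∀ P : Pt L (L ⊗[K] A), DefinedOver M P →
      ∃ P' : Pt M (M ⊗[K] A), pushPt M.val P' = P := fun P hP =>
    exists_pushPt_eq M.val P (by rwa [M.fieldRange_val])
  choose φ' hφ' using fun j => hval _ (hmemφ j)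
  have hpush : ∀ j, pushPt f (φ' j) = some (ψ j) := by
    intro j
    have h' := hφ' j
    rcases hj : φ' j with _ | χ
    · rw [hj] at h'
      simp [pushPt] at h'
    rw [hj] at h'
    simp only [pushPt, Option.map_some, Option.some.injEq] at h' ⊢
    refine Algebra.TensorProduct.ext (AlgHom.ext fun c => ?_) (AlgHom.ext fun c => ?_)
    · exact ((pushHom f χ).commutes c).trans ((ψ j).commutes c).symm
    · show pushHom f χ (1 ⊗ₜ c) = ψ j (1 ⊗ₜ c)
      have hc := DFunLike.congr_fun h' ((1 : L) ⊗ₜ c)
      rw [pushHom_tmul, one_mul] at hc ⊢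
      rw [← hf j c (hmemφ j c)]
      exact congrArg f (show χ (1 ⊗ₜ c) = (⟨_, hmemφ j c⟩ : M) from Subtype.ext hc)
  have hmapφ : ∀ s : Multiset (Fin n),
      (s.map fun j => φ' j).map (pushPt M.val) = s.map fun j => some (φ j) := fun s => by
    rw [Multiset.map_map]
    exact Multiset.map_congr rfl fun j _ => hφ' j
  have hmapψ : ∀ s : Multiset (Fin n),
      (s.map fun j => φ' j).map (pushPt f) = s.map fun j => some (ψ j) := fun s => by
    rw [Multiset.map_map]
    exact Multiset.map_congr rfl fun j _ => hpush j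
  have hWM := D.definedOver_of_nsmul_cl_eq M hm W _ _ hWmin
    (fun P hP => by obtain ⟨j, -, rfl⟩ := Multiset.mem_map.mp hP; exact hmemφ j)
    (fun P hP => by obtain ⟨j, -, rfl⟩ := Multiset.mem_map.mp hP; exact hmemφ j) hrel₀
  have hW' : ∀ P ∈ W, ∃ P' : Pt M (M ⊗[K] A), pushPt M.val P' = P := fun P hP =>
    hval P (hWM P hP)
  choose g hg using hW'
  set W' := W.pmap g fun _ h => h
  have hW'W : W'.map (pushPt M.val) = W := by
    rw [Multiset.map_pmap]
    exact (Multiset.pmap_congr W fun P hP _ _ => hg P hP).trans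
      (Multiset.pmap_eq_map (fun _ => True) id W fun _ _ => trivial) |>.trans (Multiset.map_id W)
  have key : cl (m • W' + b.map fun j => φ' j) = cl (a.map fun j => φ' j) := by
    rw [← D.cl_map_pushPt_eq_iff M.val, Multiset.map_add, Multiset.map_nsmul, hW'W, hmapφ,
      hmapφ, cl_add, cl_nsmul, hrel₀, sub_add_cancel]
  refine ⟨W'.map (pushPt f), by rwa [Multiset.card_map, Multiset.card_pmap], ?_⟩
  have h2 := D.cl_map_pushPt_congr f _ _ key
  rw [Multiset.map_add, Multiset.map_nsmul, hmapψ, hmapψ, cl_add, cl_nsmul] at h2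
  rw [← h2, add_sub_cancel_right]

omit [CharZero K] [IsDedekindDomain A] in
omit [IsAlgClosed K] in
/-- Every scalar is the projection of a point. -/
theorem exists_projOf_eq (x : L) : ∃ φ : L ⊗[K] A →ₐ[L] L, D.projOf φ = x := by
  set DL := D.baseChange L
  have hp : D.projDeg ∉ D.gaps := D.notMem_gaps_of_le (by simp [projDeg])
  set t : L ⊗[K] A := 1 ⊗ₜ D.e D.projDeg - x ⊗ₜ (1 : A)
  have hc : DL.coeff D.projDeg t = 1 := by
    rw [map_sub, baseChange_coeff, baseChange_coeff, D.coeff_e hp, if_pos rfl, ← D.e_zero,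
      D.coeff_e D.zero_notMem, if_neg (by simp [projDeg]), map_zero]
    simp
  have ht : t ≠ 0 := fun h => by
    rw [h, map_zero] at hc
    exact zero_ne_one hc
  have hdeg : 0 < DL.deg t := by
    by_contra h0
    rw [DL.coeff_eq_zero_of_deg_lt (by simp [projDeg]; omega)] at hc
    exact zero_ne_one hc
  rw [← DL.card_zerosFin ht, Multiset.card_pos_iff_exists_mem] at hdeg
  obtain ⟨φ, hφ⟩ := hdeg
  refine ⟨φ, ?_⟩
  have h0 : φ t = 0 := by
    have := (DL.mem_divIdeal_iff ht (F := {φ})).mpr (Multiset.singleton_le.mpr hφ)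
    simpa [divIdeal, ptIdeal, RingHom.mem_ker] using this
  rw [map_sub, sub_eq_zero] at h0
  exact h0.trans (φ.commutes x)

end Fermat.Agent.MW.CurveBasis
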