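import Fermat.Agent.MW.Core.API
import Fermat.Agent.MW.Local.Specialise
import Fermat.Agent.MW.Height.Ultra
import Fermat.Agent.MW.Weak.Classes
import Fermat.Agent.MWKummer.Finite

/-! # Unramified division classes and the weak Mordell–Weil theorem

Inertia at a large prime fixes every division class of a rational class: otherwise an ultrapower
of counterexamples gives a valuation with residue field over `ℚ̄` in which a nonzero constant
torsion class reduces to zero.
-/

set_option autoImplicit false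

noncomputable section

open scoped TensorProduct Classical
open Filter

namespace Fermat.Agent.MW

/-- Equality of germs is eventual equality. -/
theorem toOmega_eq_iff {f g : ℕ → Qbar} :
    toOmega f = toOmega g ↔ ∀ᶠ n in (hyperfilter ℕ : Filter ℕ), f n = g n :=
  Germ.coe_eq

theorem toOmega_inv (f : ℕ → Qbar) : (toOmega f)⁻¹ = toOmega (fun n => (f n)⁻¹) := rfl

/-- The value of a section at a germ of points. -/
theorem evSec_germPt {A : Type} [CommRing A] [Algebra Qbar A] (D : CurveBasis Qbar A)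
    (N : ℕ) (P : ℕ → Pt Qbar A) (f : A) :
    (D.baseChange Omega).evSec N (germPt P) (1 ⊗ₜ f) =
      toOmega (fun n => D.evSec N (P n) f) := by
  unfold germPt
  by_cases h : ∀ᶠ n in (hyperfilter ℕ : Filter ℕ), P n = none
  · rw [if_pos h]
    show (D.baseChange Omega).coeff N (1 ⊗ₜ f) = _
    rw [CurveBasis.baseChange_coeff, one_mul]
    show toOmega (fun _ => D.coeff N f) = _
    exact toOmega_eq_iff.mpr (h.mono fun n hn => by rw [hn]; rfl)
  · rw [if_neg h]
    have h' := Ultrafilter.eventually_not.mpr h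
    have hP : ∃ φ : ℕ → (A →ₐ[Qbar] Qbar),
        ∀ᶠ n in (hyperfilter ℕ : Filter ℕ), P n = some (φ n) := by
      obtain ⟨n₀, hn₀⟩ := h'.exists
      obtain ⟨φ₀, -⟩ := Option.ne_none_iff_exists'.mp hn₀
      refine ⟨fun n => (P n).getD φ₀, h'.mono fun n hn => ?_⟩
      obtain ⟨φ, hφ⟩ := Option.ne_none_iff_exists'.mp hn
      simp [hφ]
    rw [dif_pos hP]
    simp only [CurveBasis.evSec, AlgHom.toLinearMap_apply, Algebra.TensorProduct.lift_tmul,
      map_one, one_mul]
    exact toOmega_eq_iff.mpr (hP.choose_spec.mono fun n hn => by rw [hn]; rfl)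

/-- A constant is eventually integral at valuation rings over primes tending to infinity. -/
theorem eventually_mem {q : ℕ → ℕ} (hq : ∀ n, (q n).Prime) (hqn : ∀ n, n ≤ q n)
    (A : ℕ → ValuationSubring Qbar) (hA : ∀ n, (A n).LiesOverPrime (q n)) (c : Qbar) :
    ∀ᶠ n in (hyperfilter ℕ : Filter ℕ), c ∈ A n := by
  obtain ⟨N, hN, hint⟩ : ∃ N : ℕ, N ≠ 0 ∧ IsIntegral ℤ ((N : Qbar) * c) := by
    have halg : IsAlgebraic ℤ c :=
      (IsFractionRing.isAlgebraic_iff ℤ ℚ Qbar).mpr (Algebra.IsAlgebraic.isAlgebraic c)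
    obtain ⟨y, hy, hint⟩ := halg.exists_integral_multiple
    refine ⟨y.natAbs, Int.natAbs_ne_zero.mpr hy, ?_⟩
    have hint' : IsIntegral ℤ ((y : Qbar) * c) := by rwa [← zsmul_eq_mul]
    rcases Int.natAbs_eq y with h | h
    · rw [← Int.cast_natCast (R := Qbar), ← h]; exact hint'
    · have h2 : ((y.natAbs : ℕ) : ℤ) = -y := by omega
      rw [← Int.cast_natCast (R := Qbar), h2, Int.cast_neg, neg_mul]
      exact hint'.neg
  refine Filter.Eventually.filter_mono Nat.hyperfilter_le_atTop ?_
  filter_upwards [eventually_gt_atTop N] with n hn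
  have hu : (N : Qbar) ∉ (A n).nonunits := by
    rw [GaloisBasics.natCast_mem_nonunits_iff (hA n) (hq n)]
    exact fun hdvd => absurd (Nat.le_of_dvd (Nat.pos_of_ne_zero hN) hdvd)
      (by have := hqn n; omega)
  have hN0 : (N : Qbar) ≠ 0 := Nat.cast_ne_zero.mpr hN
  have hinv : (N : Qbar)⁻¹ ∈ A n := by
    by_contra hc
    exact hu ((A n).mem_nonunits_iff_or.mpr (Or.inr hc))
  have := mul_mem hinv (GaloisBasics.mem_of_isIntegral (A n) hint)
  rwa [inv_mul_cancel_left₀ hN0] at this

variable (As : ℕ → ValuationSubring Qbar)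

/-- The germs of sequences integral at the given valuation rings. -/
def germSubring : ValuationSubring Omega where
  carrier := {x | ∃ f : ℕ → Qbar, toOmega f = x ∧
    ∀ᶠ n in (hyperfilter ℕ : Filter ℕ), f n ∈ As n}
  zero_mem' := ⟨0, map_zero _, Eventually.of_forall fun n => zero_mem (As n)⟩
  one_mem' := ⟨1, map_one _, Eventually.of_forall fun n => one_mem (As n)⟩
  add_mem' := by
    rintro _ _ ⟨f, rfl, hf⟩ ⟨g, rfl, hg⟩
    exact ⟨f + g, map_add _ _ _, hf.mp (hg.mono fun n h₂ h₁ => add_mem h₁ h₂)⟩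
  mul_mem' := by
    rintro _ _ ⟨f, rfl, hf⟩ ⟨g, rfl, hg⟩
    exact ⟨f * g, map_mul _ _ _, hf.mp (hg.mono fun n h₂ h₁ => mul_mem h₁ h₂)⟩
  neg_mem' := by
    rintro _ ⟨f, rfl, hf⟩
    exact ⟨-f, map_neg _ _, hf.mono fun n h => neg_mem h⟩
  mem_or_inv_mem' x := by
    induction x using Filter.Germ.inductionOn with
    | h f =>
      rcases Ultrafilter.eventually_or.mp
        (Eventually.of_forall fun n => (As n).mem_or_inv_mem (f n) :
          ∀ᶠ n in (hyperfilter ℕ : Filter ℕ), f n ∈ As n ∨ (f n)⁻¹ ∈ As n) with h | h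
      · exact Or.inl ⟨f, rfl, h⟩
      · exact Or.inr ⟨fun n => (f n)⁻¹, (toOmega_inv f).symm, h⟩

theorem toOmega_mem_germSubring {f : ℕ → Qbar} :
    toOmega f ∈ germSubring As ↔ ∀ᶠ n in (hyperfilter ℕ : Filter ℕ), f n ∈ As n := by
  refine ⟨?_, fun h => ⟨f, rfl, h⟩⟩
  rintro ⟨g, hg, h⟩
  exact (toOmega_eq_iff.mp hg).mp (h.mono fun n hn he => he ▸ hn)

theorem valuation_toOmega_lt_one {f : ℕ → Qbar}
    (h : ∀ᶠ n in (hyperfilter ℕ : Filter ℕ), f n ∈ (As n).nonunits) :
    (germSubring As).valuation (toOmega f) < 1 := by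
  rw [← ValuationSubring.mem_nonunits_iff, ValuationSubring.mem_nonunits_iff_or]
  by_cases h0 : toOmega f = 0
  · exact Or.inl h0
  refine Or.inr fun hinv => ?_
  rw [toOmega_inv, toOmega_mem_germSubring] at hinv
  have hne : ∀ᶠ n in (hyperfilter ℕ : Filter ℕ), f n ≠ 0 := Ultrafilter.eventually_not.mpr
    fun he => h0 (toOmega_eq_iff.mpr he : toOmega f = toOmega 0) |>.elim
  obtain ⟨n, ⟨hn, hn'⟩, hn''⟩ := ((h.and hinv).and hne).exists
  rcases ((As n).mem_nonunits_iff_or.mp hn) with h' | h'
  · exact hn'' h'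
  · exact h' hn'

variable {As}

/-- A sequence of coordinate vectors and its moves by inertia elements are close. -/
theorem dst_lt_one_of_inertia {ι : Type} [Fintype ι] [Nonempty ι] (x : ℕ → ι → Qbar)
    (σ : ℕ → GalQ) (hσ : ∀ n, σ n ∈ (As n).inertiaSubgroupIn ℚ) (hx : ∀ n, x n ≠ 0) :
    supMag (germSubring As).valuation
        (wedge (fun i => toOmega fun n => σ n (x n i)) (fun i => toOmega fun n => x n i)) /
      (supMag (germSubring As).valuation (fun i => toOmega fun n => σ n (x n i)) *
        supMag (germSubring As).valuation (fun i => toOmega fun n => x n i)) < 1 := by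
  set v := (germSubring As).valuation
  have hmax : ∀ n, ∃ k, x n k ≠ 0 ∧ ∀ i, x n i / x n k ∈ As n := by
    intro n
    obtain ⟨k, -, hk⟩ := Finset.exists_max_image Finset.univ
      (fun i => (As n).valuation (x n i)) Finset.univ_nonempty
    have hk0 : x n k ≠ 0 := fun h0 => hx n (funext fun i => by
      have := hk i (Finset.mem_univ i)
      rw [h0, map_zero, le_zero_iff, map_eq_zero] at this
      exact this)
    refine ⟨k, hk0, fun i => ((As n).valuation_le_one_iff _).mp ?_⟩
    rw [map_div₀]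
    exact div_le_one₀ (zero_lt_iff.mpr (by simpa using hk0)) |>.mpr (hk i (Finset.mem_univ i))
  choose k hk0 hk using hmax
  obtain ⟨k₀, hk₀⟩ : ∃ k₀, ∀ᶠ n in (hyperfilter ℕ : Filter ℕ), k n = k₀ := by
    rw [← Ultrafilter.eventually_exists_iff]
    exact Eventually.of_forall fun n => ⟨k n, rfl⟩
  set X : Omega := toOmega fun n => x n k₀ with hXdef
  set Y : Omega := toOmega fun n => σ n (x n k₀) with hYdef
  have hX : X ≠ 0 := fun h0 => by
    obtain ⟨n, hn, hn'⟩ := (hk₀.and (toOmega_eq_iff.mp
      (h0.trans (map_zero toOmega).symm))).exists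
    exact hk0 n (by rw [hn]; exact hn')
  have hY : Y ≠ 0 := fun h0 => by
    obtain ⟨n, hn, hn'⟩ := (hk₀.and (toOmega_eq_iff.mp
      (h0.trans (map_zero toOmega).symm))).exists
    exact hk0 n (by rw [hn]; exact (map_eq_zero _).mp hn')
  have hvX : 0 < v X := zero_lt_iff.mpr (by simpa using hX)
  have hvY : 0 < v Y := zero_lt_iff.mpr (by simpa using hY)
  have hin : ∀ n, (σ n) ∈ (As n).decompositionSubgroup ℚ ∧
      ∀ y ∈ As n, σ n y - y ∈ (As n).nonunits :=
    fun n => GaloisBasics.mem_inertiaSubgroupIn_iff.mp (hσ n)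
  have hwedge : ∀ p : ι × ι,
      v (wedge (fun i => toOmega fun n => σ n (x n i)) (fun i => toOmega fun n => x n i) p) <
        v Y * v X := by
    rintro ⟨a, b⟩
    rw [← map_mul, ← div_lt_one₀ (zero_lt_iff.mpr (by simpa using mul_ne_zero hY hX)),
      ← map_div₀]
    have : wedge (fun i => toOmega fun n => σ n (x n i)) (fun i => toOmega fun n => x n i) (a, b) /
        (Y * X) = toOmega fun n => (σ n (x n a) * x n b - σ n (x n b) * x n a) /
          (σ n (x n k₀) * x n k₀) := by
      simp only [wedge, hYdef, hXdef, ← map_mul, ← map_sub]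
      rfl
    rw [this]
    refine valuation_toOmega_lt_one As (hk₀.mono fun n hn => ?_)
    subst hn
    have hab : (σ n (x n a) * x n b - σ n (x n b) * x n a) / (σ n (x n (k n)) * x n (k n)) =
        (σ n (x n a / x n (k n)) - x n a / x n (k n)) * (x n b / x n (k n)) -
          (σ n (x n b / x n (k n)) - x n b / x n (k n)) * (x n a / x n (k n)) := by
      have := (map_ne_zero (σ n)).mpr (hk0 n)
      have := hk0 n
      rw [map_div₀, map_div₀]
      field_simp
      ring
    rw [hab]
    have hmul : ∀ u ∈ (As n).nonunits, ∀ w ∈ As n, u * w ∈ (As n).nonunits := fun u hu w hw => by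
      rw [ValuationSubring.mem_nonunits_iff, map_mul]
      exact mul_lt_one_of_lt_of_le ((As n).mem_nonunits_iff.mp hu)
        (((As n).valuation_le_one_iff w).mpr hw)
    exact sub_mem (hmul _ ((hin n).2 _ (hk n a)) _ (hk n b))
      (hmul _ ((hin n).2 _ (hk n b)) _ (hk n a))
  rw [div_lt_one₀]
  · refine (Finset.sup'_lt_iff _).mpr fun p _ => (hwedge p).trans_le ?_
    exact mul_le_mul'
      (Finset.le_sup' (fun i => v (toOmega fun n => σ n (x n i))) (Finset.mem_univ k₀))
      (Finset.le_sup' (fun i => v (toOmega fun n => x n i)) (Finset.mem_univ k₀))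
  · exact (mul_pos hvY hvX).trans_le (mul_le_mul'
      (Finset.le_sup' (fun i => v (toOmega fun n => σ n (x n i))) (Finset.mem_univ k₀))
      (Finset.le_sup' (fun i => v (toOmega fun n => x n i)) (Finset.mem_univ k₀)))

variable {A₀ : Type} [CommRing A₀] [Algebra ℚ A₀] [IsDedekindDomain (Qbar ⊗[ℚ] A₀)]

/-- Inertia at all primes outside a finite set fixes the division classes of rational classes. -/
theorem exists_inertia_fixes (D₀ : CurveBasis ℚ A₀) (m : ℕ)
    (htors : {t : Additive (ClassGroup (Qbar ⊗[ℚ] A₀)) | m • t = 0}.Finite) :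
    ∃ S : Finset ℕ, ∀ x ∈ FixedPoints.addSubgroup GalQ (Additive (ClassGroup (Qbar ⊗[ℚ] A₀))),
      ∀ y : Additive (ClassGroup (Qbar ⊗[ℚ] A₀)), m • y = x → ∀ q : ℕ, q.Prime → q ∉ S →
        ∀ A : ValuationSubring Qbar, A.LiesOverPrime q →
          ∀ σ ∈ A.inertiaSubgroupIn ℚ, σ • y = y := by
  by_contra! hcon
  choose x hx y hy q hq hqn As hA σ hσ hne using fun n : ℕ => hcon (Finset.range n)
  replace hqn : ∀ n, n ≤ q n := fun n => Nat.le_of_not_lt fun h => hqn n (Finset.mem_range.mpr h)
  set D := D₀.baseChange Qbar with hD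
  have : IsDedekindDomain (Omega ⊗[Qbar] (Qbar ⊗[ℚ] A₀)) :=
    isDedekindDomain_baseChange D Omega
  let O := germSubring As
  have : OverBase Qbar O :=
    ⟨fun c => (toOmega_mem_germSubring As).mpr (eventually_mem hq hqn As hA c)⟩
  have : IsAlgClosed (ResField O) := isAlgClosed_resField O
  have : IsDedekindDomain (ResField O ⊗[Qbar] (Qbar ⊗[ℚ] A₀)) :=
    isDedekindDomain_baseChange D (ResField O)
  -- the torsion difference is eventually constant
  have := htors.to_subtype
  have hmem : ∀ n, σ n • y n - y n ∈ {t | m • t = 0} := fun n => by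
    show m • (σ n • y n - y n) = 0
    rw [nsmul_sub, smul_comm m (σ n), hy, hx n (σ n), sub_self]
  obtain ⟨⟨T, hTm⟩, hT⟩ : ∃ T : {t : Additive (ClassGroup (Qbar ⊗[ℚ] A₀)) | m • t = 0},
      ∀ᶠ n in (hyperfilter ℕ : Filter ℕ), σ n • y n - y n = T := by
    rw [← Ultrafilter.eventually_exists_iff]
    exact Eventually.of_forall fun n => ⟨⟨_, hmem n⟩, rfl⟩
  replace hT : ∀ᶠ n in (hyperfilter ℕ : Filter ℕ), σ n • y n - y n = T := hT
  -- representatives
  have hrep : ∀ z : Additive (ClassGroup (Qbar ⊗[ℚ] A₀)),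
      ∃ E : Fin D.genus → Pt Qbar (Qbar ⊗[ℚ] A₀), cl (Finset.univ.val.map E) = z := by
    intro z
    obtain ⟨E, hcard, hE⟩ := D.exists_rep_card_eq z le_rfl
    obtain ⟨l, rfl⟩ : ∃ l : List (Pt Qbar (Qbar ⊗[ℚ] A₀)), (l : Multiset _) = E :=
      ⟨E.toList, E.coe_toList⟩
    rw [Multiset.coe_card] at hcard
    refine ⟨fun i => l.get (i.cast hcard.symm), hE ▸ congrArg cl ?_⟩
    rw [Fin.univ_def, Multiset.map_coe, Multiset.coe_eq_coe]
    refine List.Perm.of_eq (List.ext_get (by simp [hcard]) fun i h₁ h₂ => ?_)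
    simp
  choose E hE using fun n => hrep (y n)
  obtain ⟨ET, hET⟩ := hrep T
  -- linear equivalence on germs
  let left : Fin D.genus → ℕ → Pt Qbar (Qbar ⊗[ℚ] A₀) := fun i n => galPt (σ n) (E n i)
  let right : Fin (D.genus + D.genus) → ℕ → Pt Qbar (Qbar ⊗[ℚ] A₀) :=
    Fin.append (fun i n => E n i) (fun i _ => ET i)
  have hsplit : ∀ {β : Type} (G : (ℕ → Pt Qbar (Qbar ⊗[ℚ] A₀)) → β),
      Finset.univ.val.map (fun i => G (right i)) =
        Finset.univ.val.map (fun i : Fin D.genus => G fun n => E n i) +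
          Finset.univ.val.map (fun i : Fin D.genus => G fun _ => ET i) := by
    intro β G
    rw [Fin.univ_val_map, Fin.univ_val_map, Fin.univ_val_map, Multiset.coe_add,
      ← List.ofFn_fin_append]
    exact congrArg _ (congrArg List.ofFn (funext fun i => by
      induction i using Fin.addCases with
      | left i => simp [right]
      | right i => simp only [right, Fin.append_right]))
  have heq : cl (Finset.univ.val.map fun i => germPt (left i)) =
      cl (Finset.univ.val.map fun i => germPt (right i)) := by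
    refine (cl_germ_eq_iff D left right).mpr (hT.mono fun n hn => ?_)
    rw [hsplit fun P => P n, cl_add, hE, hET]
    show _ = y n + T
    rw [← hn, add_sub_cancel, ← hE n, smul_cl, Multiset.map_map]
    rfl
  -- specialisation
  have hclose : ∀ i, red O (germPt (left i)) = red O (germPt fun n => E n i) := by
    intro i
    rw [D.red_eq_iff O]
    have hcoord : ∀ P : ℕ → Pt Qbar (Qbar ⊗[ℚ] A₀),
        (D.baseChange Omega).coord (germPt P) = fun j => toOmega fun n => D.coord (P n) j :=
      fun P => funext fun j => by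
        show (D.baseChange Omega).evSec D.embDeg (germPt P) ((D.baseChange Omega).e j) = _
        rw [CurveBasis.baseChange_e]
        exact evSec_germPt D D.embDeg P (D.e j)
    have := dst_lt_one_of_inertia (As := As) (fun n => D.coord (E n i)) σ hσ
      fun n => D.coord_ne_zero _
    rw [CurveBasis.dst, hcoord, hcoord]
    have hmove : ∀ n j, D.coord (galPt (σ n) (E n i)) j = σ n (D.coord (E n i) j) :=
      fun n j => congrFun (coord_galPt D₀ _ _) j
    simp only [left, hmove]
    exact this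
  have hred := D.cl_red_congr_eq O _ _ heq
  rw [hsplit germPt, Multiset.map_add, cl_add, Multiset.map_map, Multiset.map_map,
    Multiset.map_map] at hred
  have hsame : Finset.univ.val.map (red O ∘ fun i => germPt (left i)) =
      Finset.univ.val.map (red O ∘ fun i => germPt fun n => E n i) :=
    Multiset.map_congr rfl fun i _ => hclose i
  rw [hsame] at hred
  have hzero : cl (Finset.univ.val.map (red O ∘ fun i => germPt fun _ => ET i)) = 0 := by
    simpa using hred.symm
  have hconst : (red O ∘ fun i => germPt fun _ => ET i) = mapPt (ResField O) ∘ ET :=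
    funext fun i => by simp only [Function.comp_apply, germPt_const, CurveBasis.red_mapPt_eq O]
  rw [hconst, ← Multiset.map_map] at hzero
  have hT0 : T = 0 := by
    rw [← hET]
    exact ((D.cl_mapPt_eq_iff (ResField O) _ 0).mp (by simpa [cl] using hzero)).trans (by simp [cl])
  obtain ⟨n, hn⟩ := hT.exists
  exact hne n (sub_eq_zero.mp (hn.trans hT0))

/-- **Weak Mordell–Weil** for the classes of a curve over `ℚ`. -/
theorem finite_fixed_quotient (D₀ : CurveBasis ℚ A₀) (m : ℕ)
    (htors : {t : Additive (ClassGroup (Qbar ⊗[ℚ] A₀)) | m • t = 0}.Finite)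
    (hdiv : ∀ x : Additive (ClassGroup (Qbar ⊗[ℚ] A₀)), ∃ y, m • y = x) :
    Finite (↥(FixedPoints.addSubgroup GalQ (Additive (ClassGroup (Qbar ⊗[ℚ] A₀)))) ⧸
      (nsmulAddMonoidHom (α := ↥(FixedPoints.addSubgroup GalQ
        (Additive (ClassGroup (Qbar ⊗[ℚ] A₀))))) m).range) := by
  obtain ⟨S, hS⟩ := exists_inertia_fixes D₀ m htors
  refine MWKummer.finite_fixedPoints_quotient m S htors hdiv (fun z => ?_) hS
  obtain ⟨E, -, rfl⟩ := (D₀.baseChange Qbar).exists_rep z
  choose L hLfin hL using fun P : E.toFinset => exists_level_pt D₀ P.1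
  have := hLfin
  refine ⟨⨆ P, L P, IntermediateField.finiteDimensional_iSup_of_finite, fun σ hσ => ?_⟩
  rw [MulAction.mem_stabilizer_iff, smul_cl]
  refine congrArg cl ((Multiset.map_congr rfl fun P hP => ?_).trans (Multiset.map_id' E))
  exact MulAction.mem_stabilizer_iff.mp
    (hL ⟨P, Multiset.mem_toFinset.mpr hP⟩
      (IntermediateField.fixingSubgroup_antitone (le_iSup L ⟨P, Multiset.mem_toFinset.mpr hP⟩) hσ))

end Fermat.Agent.MW
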